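/-
Program R, package R6a (arithmetic part): recursion for the Dedekind psi function
`ψ(N) = ∑_{d ∣ N squarefree} N / d` along multiplication by a prime.
-/
import Mathlib
import Fermat.Prelude.Def_ModularCurve_X0

set_option autoImplicit false

namespace Fermat.Agent.ProgramR

open ModularCurve

lemma squarefree_dvd_of_dvd_mul_prime {M p d : ℕ} (hp : p.Prime) (hpM : p ∣ M)
    (hd : Squarefree d) (hdvd : d ∣ M * p) : d ∣ M := by
  by_cases hpd : p ∣ d
  · obtain ⟨d', rfl⟩ := hpd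
    have hcop : Nat.Coprime p d' := by
      rw [Nat.Prime.coprime_iff_not_dvd hp]
      intro h
      obtain ⟨e, rfl⟩ := h
      have : p * p ∣ p * (p * e) := ⟨e, by ring⟩
      have h1 := hd p (by simpa [mul_assoc] using this)
      exact hp.one_lt.ne' (Nat.isUnit_iff.1 h1)
    have hd' : d' ∣ M := by
      have : p * d' ∣ p * M := by rwa [mul_comm p M]
      exact (Nat.mul_dvd_mul_iff_left hp.pos).1 this
    exact Nat.Coprime.mul_dvd_of_dvd_of_dvd hcop hpM hd'
  · have hcop : Nat.Coprime d p := (Nat.Coprime.symm ((Nat.Prime.coprime_iff_not_dvd hp).2 hpd))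
    exact hcop.dvd_of_dvd_mul_right hdvd

theorem dedekindPsi_mul_prime_of_dvd {M p : ℕ} (hM : M ≠ 0) (hp : p.Prime) (hpM : p ∣ M) :
    dedekindPsi (M * p) = p * dedekindPsi M := by
  unfold dedekindPsi
  have hset : (M * p).divisors.filter Squarefree = M.divisors.filter Squarefree := by
    ext d
    simp only [Finset.mem_filter, Nat.mem_divisors]
    constructor
    · rintro ⟨⟨hd, -⟩, hsq⟩
      exact ⟨⟨squarefree_dvd_of_dvd_mul_prime hp hpM hsq hd, hM⟩, hsq⟩
    · rintro ⟨⟨hd, -⟩, hsq⟩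
      exact ⟨⟨hd.mul_right p, mul_ne_zero hM hp.ne_zero⟩, hsq⟩
  rw [hset, Finset.mul_sum]
  refine Finset.sum_congr rfl fun d hd => ?_
  simp only [Finset.mem_filter, Nat.mem_divisors] at hd
  obtain ⟨e, he⟩ := hd.1.1
  have hd0 : 0 < d := Nat.pos_of_ne_zero (by rintro rfl; simp at he; exact hM he)
  rw [he, mul_assoc, Nat.mul_div_cancel_left _ hd0, Nat.mul_div_cancel_left _ hd0, mul_comm]

theorem dedekindPsi_mul_prime_of_not_dvd {M p : ℕ} (hM : M ≠ 0) (hp : p.Prime) (hpM : ¬ p ∣ M) :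
    dedekindPsi (M * p) = (p + 1) * dedekindPsi M := by
  unfold dedekindPsi
  set S := M.divisors.filter Squarefree with hS
  have hMp : M * p ≠ 0 := mul_ne_zero hM hp.ne_zero
  rw [← Finset.sum_filter_add_sum_filter_not ((M * p).divisors.filter Squarefree) (fun d => p ∣ d)]
  -- the part with `p ∤ d`
  have h2 : ((M * p).divisors.filter Squarefree).filter (fun d => ¬ p ∣ d) = S := by
    ext d
    simp only [hS, Finset.mem_filter, Nat.mem_divisors]
    constructor
    · rintro ⟨⟨⟨hd, -⟩, hsq⟩, hpd⟩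
      have hcop : Nat.Coprime d p := (Nat.Coprime.symm ((Nat.Prime.coprime_iff_not_dvd hp).2 hpd))
      exact ⟨⟨hcop.dvd_of_dvd_mul_right hd, hM⟩, hsq⟩
    · rintro ⟨⟨hd, -⟩, hsq⟩
      exact ⟨⟨⟨hd.mul_right p, hMp⟩, hsq⟩, fun h => hpM (h.trans hd)⟩
  -- the part with `p ∣ d`
  have h1 : ((M * p).divisors.filter Squarefree).filter (fun d => p ∣ d) = S.image (p * ·) := by
    ext d
    simp only [hS, Finset.mem_filter, Nat.mem_divisors, Finset.mem_image]
    constructor
    · rintro ⟨⟨⟨hd, -⟩, hsq⟩, ⟨d', rfl⟩⟩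
      refine ⟨d', ⟨⟨?_, hM⟩, hsq.of_mul_right⟩, rfl⟩
      have : p * d' ∣ p * M := by rwa [mul_comm p M]
      exact (Nat.mul_dvd_mul_iff_left hp.pos).1 this
    · rintro ⟨d', ⟨⟨hd', -⟩, hsq'⟩, rfl⟩
      refine ⟨⟨⟨?_, hMp⟩, ?_⟩, Dvd.intro _ rfl⟩
      · rw [mul_comm M p]; exact Nat.mul_dvd_mul_left p hd'
      · have hcop : Nat.Coprime p d' :=
          (Nat.Prime.coprime_iff_not_dvd hp).2 (fun h => hpM (h.trans hd'))
        exact (Nat.squarefree_mul hcop).2 ⟨hp.squarefree, hsq'⟩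
  rw [h1, h2, Finset.sum_image (fun a _ b _ h => Nat.eq_of_mul_eq_mul_left hp.pos h), add_mul,
    one_mul, Finset.mul_sum, add_comm]
  congr 1
  · refine Finset.sum_congr rfl fun d hd => ?_
    simp only [hS, Finset.mem_filter, Nat.mem_divisors] at hd
    obtain ⟨e, he⟩ := hd.1.1
    have hd0 : 0 < d := Nat.pos_of_ne_zero (by rintro rfl; simp at he; exact hM he)
    rw [he, Nat.mul_div_cancel_left _ hd0, mul_assoc, Nat.mul_div_cancel_left _ hd0, mul_comm]
  · refine Finset.sum_congr rfl fun d hd => ?_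
    simp only [hS, Finset.mem_filter, Nat.mem_divisors] at hd
    obtain ⟨e, he⟩ := hd.1.1
    have hd0 : 0 < d := Nat.pos_of_ne_zero (by rintro rfl; simp at he; exact hM he)
    have h3 : d * e * p = (p * d) * e := by ring
    rw [he, h3, Nat.mul_div_cancel_left _ (Nat.mul_pos hp.pos hd0), Nat.mul_div_cancel_left _ hd0]

end Fermat.Agent.ProgramR
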