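/-
Program R, package R6a: the index of `Γ₀(N)` in `SL(2, ℤ)` is the Dedekind psi function.
-/
import Mathlib
import Fermat.Prelude.Def_ModularCurve_X0
import Fermat.Agent.ProgramR.Counting.Psi

set_option autoImplicit false

namespace Fermat.Agent.ProgramR

open Matrix MatrixGroups CongruenceSubgroup

/-- Index of a subgroup via a surjective map to a type separating exactly the cosets. -/
theorem index_eq_card_of_map {G : Type*} [Group G] (H : Subgroup G) {X : Type*} (f : G → X)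
    (hf : ∀ a b, f a = f b ↔ a⁻¹ * b ∈ H) (hs : Function.Surjective f) :
    H.index = Nat.card X := by
  rw [Subgroup.index_eq_card]
  refine Nat.card_congr (Equiv.ofBijective
    (Quotient.lift f (fun a b hab => (hf a b).2 (QuotientGroup.leftRel_apply.1 hab))) ⟨?_, ?_⟩)
  · rintro ⟨a⟩ ⟨b⟩ hab
    exact Quotient.sound (QuotientGroup.leftRel_apply.2 ((hf a b).1 hab))
  · intro x
    obtain ⟨a, rfl⟩ := hs x
    exact ⟨Quotient.mk _ a, rfl⟩

lemma SL2_det (g : SL(2, ℤ)) : g 0 0 * g 1 1 - g 0 1 * g 1 0 = 1 := by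
  have := g.det_coe
  rw [Matrix.det_fin_two] at this
  exact this

lemma SL2_inv_mul_10 (g g' : SL(2, ℤ)) :
    (g⁻¹ * g') 1 0 = g 0 0 * g' 1 0 - g 1 0 * g' 0 0 := by
  simp [Matrix.SpecialLinearGroup.coe_inv, Matrix.adjugate_fin_two, Matrix.mul_apply,
    Fin.sum_univ_two]
  ring

lemma mem_Gamma0_iff_dvd {N : ℕ} {g : SL(2, ℤ)} : g ∈ Gamma0 N ↔ (N : ℤ) ∣ g 1 0 := by
  rw [Gamma0_mem, ZMod.intCast_zmod_eq_zero_iff_dvd]

section RelIndex

variable (M p : ℕ) [NeZero M] [hp : Fact p.Prime]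

omit [NeZero M] hp in
lemma Gamma0_mul_le : Gamma0 (M * p) ≤ Gamma0 M := by
  intro g hg
  rw [mem_Gamma0_iff_dvd] at hg ⊢
  exact (Dvd.intro _ (by push_cast; rfl)).trans hg

/-- The point of `P¹(𝔽_p)` (as `Option (ZMod p)`) attached to `g ∈ Γ₀(M)`:
`(a : c / M)` for `g = (a, b; c, d)`. -/
noncomputable def relPoint (g : SL(2, ℤ)) : Option (ZMod p) :=
  if ((g 0 0 : ℤ) : ZMod p) = 0 then none
  else some (((g 1 0 / (M : ℤ) : ℤ) : ZMod p) / ((g 0 0 : ℤ) : ZMod p))

variable {M p}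

lemma relPoint_eq_iff {g g' : SL(2, ℤ)} (hg : g ∈ Gamma0 M) (hg' : g' ∈ Gamma0 M) :
    relPoint M p g = relPoint M p g' ↔ g⁻¹ * g' ∈ Gamma0 (M * p) := by
  rw [mem_Gamma0_iff_dvd] at hg hg'
  obtain ⟨c1, hc1⟩ := hg
  obtain ⟨c2, hc2⟩ := hg'
  have hM0 : (M : ℤ) ≠ 0 := by exact_mod_cast NeZero.ne M
  have hq1 : g 1 0 / (M : ℤ) = c1 := by rw [hc1, Int.mul_ediv_cancel_left _ hM0]
  have hq2 : g' 1 0 / (M : ℤ) = c2 := by rw [hc2, Int.mul_ediv_cancel_left _ hM0]
  -- membership in `Γ₀(M p)` as a congruence mod `p`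
  have hmem : g⁻¹ * g' ∈ Gamma0 (M * p) ↔
      ((g 0 0 : ℤ) : ZMod p) * ((c2 : ℤ) : ZMod p) = ((c1 : ℤ) : ZMod p) * ((g' 0 0 : ℤ) : ZMod p) := by
    rw [mem_Gamma0_iff_dvd, SL2_inv_mul_10, hc1, hc2]
    have : g 0 0 * (↑M * c2) - ↑M * c1 * g' 0 0 = (M : ℤ) * (g 0 0 * c2 - c1 * g' 0 0) := by ring
    rw [this]
    push_cast
    rw [mul_dvd_mul_iff_left hM0, ← ZMod.intCast_zmod_eq_zero_iff_dvd]
    push_cast
    rw [sub_eq_zero]
  rw [hmem]
  have hdet := SL2_det g
  have hdet' := SL2_det g'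
  -- if `a ≡ 0` then `c1` is a unit mod `p`
  have hunit : ((g 0 0 : ℤ) : ZMod p) = 0 → ((c1 : ℤ) : ZMod p) ≠ 0 := by
    intro ha hc
    have := congrArg (Int.cast : ℤ → ZMod p) hdet
    rw [hc1] at this
    push_cast at this
    rw [ha, hc] at this
    simp at this
  have hunit' : ((g' 0 0 : ℤ) : ZMod p) = 0 → ((c2 : ℤ) : ZMod p) ≠ 0 := by
    intro ha hc
    have := congrArg (Int.cast : ℤ → ZMod p) hdet'
    rw [hc2] at this
    push_cast at this
    rw [ha, hc] at this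
    simp at this
  unfold relPoint
  rw [hq1, hq2]
  by_cases ha : ((g 0 0 : ℤ) : ZMod p) = 0 <;> by_cases ha' : ((g' 0 0 : ℤ) : ZMod p) = 0
  · simp [ha, ha']
  · simp only [ha, ha', if_true, if_false, reduceCtorEq, zero_mul, false_iff]
    intro h
    exact (mul_ne_zero (hunit ha) ha') h.symm
  · simp only [ha, ha', if_true, if_false, reduceCtorEq, mul_zero, false_iff]
    exact mul_ne_zero ha (hunit' ha')
  · simp only [ha, ha', if_false, Option.some.injEq]
    rw [div_eq_div_iff ha ha']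
    constructor
    · intro h; linear_combination -h
    · intro h; linear_combination -h

/-- The matrix `(1, 0; M x, 1)`. -/
def lowerElt (M : ℕ) (x : ℤ) : SL(2, ℤ) :=
  ⟨!![1, 0; (M : ℤ) * x, 1], by simp [Matrix.det_fin_two]⟩

omit [NeZero M] hp in
lemma lowerElt_mem (x : ℤ) : lowerElt M x ∈ Gamma0 M := by
  rw [mem_Gamma0_iff_dvd]
  simp [lowerElt]

lemma relPoint_lowerElt (x : ℤ) : relPoint M p (lowerElt M x) = some ((x : ℤ) : ZMod p) := by
  have hM0 : (M : ℤ) ≠ 0 := by exact_mod_cast NeZero.ne M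
  have h00 : (lowerElt M x) 0 0 = 1 := by simp [lowerElt]
  have h10 : (lowerElt M x) 1 0 = (M : ℤ) * x := by simp [lowerElt]
  unfold relPoint
  rw [h00, h10, Int.mul_ediv_cancel_left _ hM0]
  simp

omit [NeZero M] in
lemma exists_relPoint_eq_none (hpM : ¬ p ∣ M) : ∃ g ∈ Gamma0 M, relPoint M p g = none := by
  have hcop : IsCoprime (p : ℤ) (M : ℤ) := by
    rw [Int.isCoprime_iff_gcd_eq_one, Int.gcd_natCast_natCast]
    exact (Nat.Prime.coprime_iff_not_dvd hp.out).2 hpM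
  obtain ⟨u, v, huv⟩ := hcop
  refine ⟨⟨!![(p : ℤ), -v; (M : ℤ), u], ?_⟩, ?_, ?_⟩
  · rw [Matrix.det_fin_two]
    simp
    linear_combination huv
  · rw [mem_Gamma0_iff_dvd]
    simp
  · unfold relPoint
    simp

omit [NeZero M] in
lemma cast_a_ne_zero_of_dvd (hpM : p ∣ M) {g : SL(2, ℤ)} (hg : g ∈ Gamma0 M) :
    ((g 0 0 : ℤ) : ZMod p) ≠ 0 := by
  intro ha
  rw [mem_Gamma0_iff_dvd] at hg
  have hpc : ((g 1 0 : ℤ) : ZMod p) = 0 := by
    rw [ZMod.intCast_zmod_eq_zero_iff_dvd]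
    exact (Int.natCast_dvd_natCast.2 hpM).trans hg
  have := congrArg (Int.cast : ℤ → ZMod p) (SL2_det g)
  push_cast at this
  rw [ha, hpc] at this
  simp at this

theorem relIndex_Gamma0_of_not_dvd (hpM : ¬ p ∣ M) :
    (Gamma0 (M * p)).relIndex (Gamma0 M) = p + 1 := by
  rw [Subgroup.relIndex]
  have := index_eq_card_of_map ((Gamma0 (M * p)).subgroupOf (Gamma0 M))
    (fun g : Gamma0 M => relPoint M p g.1)
    (fun a b => by
      rw [Subgroup.mem_subgroupOf]
      exact relPoint_eq_iff a.2 b.2)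
    (by
      rintro (_ | x)
      · obtain ⟨g, hg, hgn⟩ := exists_relPoint_eq_none hpM
        exact ⟨⟨g, hg⟩, hgn⟩
      · refine ⟨⟨lowerElt M (x.val : ℤ), lowerElt_mem _⟩, ?_⟩
        simp only [relPoint_lowerElt]
        simp)
  rw [this, Nat.card_eq_fintype_card, Fintype.card_option, ZMod.card]

theorem relIndex_Gamma0_of_dvd (hpM : p ∣ M) :
    (Gamma0 (M * p)).relIndex (Gamma0 M) = p := by
  rw [Subgroup.relIndex]
  have := index_eq_card_of_map ((Gamma0 (M * p)).subgroupOf (Gamma0 M))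
    (fun g : Gamma0 M => ((g.1 1 0 / (M : ℤ) : ℤ) : ZMod p) / ((g.1 0 0 : ℤ) : ZMod p))
    (fun a b => by
      rw [Subgroup.mem_subgroupOf]
      refine Iff.trans ?_ (relPoint_eq_iff a.2 b.2)
      unfold relPoint
      simp only [cast_a_ne_zero_of_dvd hpM a.2, cast_a_ne_zero_of_dvd hpM b.2, if_false,
        Option.some.injEq])
    (by
      intro x
      refine ⟨⟨lowerElt M (x.val : ℤ), lowerElt_mem _⟩, ?_⟩
      have h := relPoint_lowerElt (M := M) (p := p) (x.val : ℤ)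
      unfold relPoint at h
      have h00 : ((((lowerElt M (x.val : ℤ)) 0 0 : ℤ)) : ZMod p) ≠ 0 := by simp [lowerElt]
      simp only [h00, if_false, Option.some.injEq] at h
      simpa using h)
  rw [this, Nat.card_eq_fintype_card, ZMod.card]

end RelIndex

lemma Gamma0_one_eq_top : Gamma0 1 = ⊤ := by
  ext g
  simp only [Subgroup.mem_top, iff_true]
  rw [mem_Gamma0_iff_dvd]
  simp

/-- **Index of `Γ₀(N)`**: `[SL(2, ℤ) : Γ₀(N)] = ψ(N) = ∑_{d ∣ N squarefree} N / d`. -/
theorem index_Gamma0 (N : ℕ) [hN : NeZero N] : (Gamma0 N).index = ModularCurve.dedekindPsi N := by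
  have key : ∀ N : ℕ, N ≠ 0 → (Gamma0 N).index = ModularCurve.dedekindPsi N := by
    intro N
    induction N using Nat.strong_induction_on with
    | _ N ih =>
      intro hN0
      by_cases h1 : N = 1
      · subst h1
        rw [Gamma0_one_eq_top, Subgroup.index_top, ModularCurve.dedekindPsi_one]
      · have hp : (N.minFac).Prime := Nat.minFac_prime h1
        obtain ⟨M, hM⟩ := Nat.minFac_dvd N
        set p := N.minFac with hpdef
        have hM0 : M ≠ 0 := by
          rintro rfl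
          exact hN0 (by rw [hM, mul_zero])
        have hMlt : M < N := by
          rw [hM]
          calc M = 1 * M := (one_mul M).symm
            _ < p * M := Nat.mul_lt_mul_of_pos_right hp.one_lt (Nat.pos_of_ne_zero hM0)
        have hNeq : N = M * p := by rw [hM, mul_comm]
        have : NeZero M := ⟨hM0⟩
        have : Fact p.Prime := ⟨hp⟩
        have hidx := Subgroup.relIndex_mul_index (Gamma0_mul_le M p)
        rw [hNeq, ← hidx, ih M hMlt hM0]
        by_cases hpM : p ∣ M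
        · rw [relIndex_Gamma0_of_dvd hpM, dedekindPsi_mul_prime_of_dvd hM0 hp hpM]
        · rw [relIndex_Gamma0_of_not_dvd hpM, dedekindPsi_mul_prime_of_not_dvd hM0 hp hpM]
  exact key N hN.out

/-- `Nat.card` form of the index formula. -/
theorem card_quotient_Gamma0 (N : ℕ) [NeZero N] :
    Nat.card (SL(2, ℤ) ⧸ Gamma0 N) = ModularCurve.dedekindPsi N := by
  rw [← Subgroup.index_eq_card, index_Gamma0]

end Fermat.Agent.ProgramR
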