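import Mathlib
import Fermat.Prelude.Def_ModularCurve_GenusNumerics

/-!
# Counting cusps of `Γ₀(N)`

Model-independent core: the orbits of the group generated by unit scalings and the translation
`(a, c) ↦ (a + c, c)` on unimodular columns over `ZMod N` are counted by
`ModularCurve.cuspCount N = ∑ d ∣ N, φ (gcd d (N / d))`.
-/

set_option autoImplicit false
set_option linter.unusedSectionVars false
set_option linter.style.haveILetI false

namespace Fermat.Agent.ProgramR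

open ZMod

section NumberTheory

variable {N : ℕ} [NeZero N]

/-- Divisibility of the canonical representative by a divisor of `N` is detected by the cast
homomorphism. -/
theorem castHom_eq_zero_iff_dvd_val {k : ℕ} (hk : k ∣ N) (x : ZMod N) :
    ZMod.castHom hk (ZMod k) x = 0 ↔ k ∣ x.val := by
  rw [ZMod.castHom_apply, ZMod.cast_eq_val, ZMod.natCast_eq_zero_iff]

/-- The kernel of the cast homomorphism `ZMod N → ZMod k` consists of the multiples of `k`. -/
theorem castHom_eq_zero_iff_exists_mul {k : ℕ} (hk : k ∣ N) (x : ZMod N) :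
    ZMod.castHom hk (ZMod k) x = 0 ↔ ∃ y : ZMod N, x = y * (k : ZMod N) := by
  constructor
  · intro h
    rw [castHom_eq_zero_iff_dvd_val] at h
    obtain ⟨m, hm⟩ := h
    refine ⟨(m : ZMod N), ?_⟩
    rw [← ZMod.natCast_zmod_val x, hm]
    push_cast
    ring
  · rintro ⟨y, rfl⟩
    rw [map_mul, map_natCast, ZMod.natCast_self, mul_zero]

/-- `gcd (x.val) N` is invariant under multiplication by units. -/
theorem gcd_val_unit_mul (u : (ZMod N)ˣ) (x : ZMod N) :
    Nat.gcd ((u : ZMod N) * x).val N = Nat.gcd x.val N := by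
  have key : ∀ (v : (ZMod N)ˣ) (y : ZMod N), Nat.gcd y.val N ∣ Nat.gcd ((v : ZMod N) * y).val N := by
    intro v y
    apply Nat.dvd_gcd _ (Nat.gcd_dvd_right _ _)
    have hk : Nat.gcd y.val N ∣ N := Nat.gcd_dvd_right _ _
    rw [← castHom_eq_zero_iff_dvd_val hk, map_mul,
      (castHom_eq_zero_iff_dvd_val hk y).mpr (Nat.gcd_dvd_left _ _), mul_zero]
  apply Nat.dvd_antisymm
  · have := key u⁻¹ ((u : ZMod N) * x)
    rwa [← mul_assoc, Units.inv_mul, one_mul] at this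
  · exact key u x

/-- A divisor of `N`, viewed in `ZMod N`, has gcd invariant equal to itself. -/
theorem gcd_val_natCast_of_dvd {d : ℕ} (hd : d ∣ N) : Nat.gcd (d : ZMod N).val N = d := by
  rw [ZMod.val_natCast, ← Nat.gcd_rec, Nat.gcd_eq_right hd]

/-- Two divisors of `N` that are associated in `ZMod N` are equal. -/
theorem eq_of_natCast_eq_unit_mul {d d' : ℕ} (hd : d ∣ N) (hd' : d' ∣ N) (u : (ZMod N)ˣ)
    (h : (d' : ZMod N) = u * (d : ZMod N)) : d = d' := by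
  rw [← gcd_val_natCast_of_dvd hd, ← gcd_val_natCast_of_dvd hd', h, gcd_val_unit_mul]

/-- If `x * d = 0` in `ZMod N` for a divisor `d` of `N`, then `x ≡ 0` modulo `N / d`. -/
theorem castHom_eq_zero_of_mul_natCast_eq_zero {d : ℕ} (hd : d ∣ N) (x : ZMod N)
    (h : x * (d : ZMod N) = 0) :
    ZMod.castHom (Nat.div_dvd_of_dvd hd) (ZMod (N / d)) x = 0 := by
  rw [castHom_eq_zero_iff_dvd_val]
  have hN : N ≠ 0 := NeZero.ne N
  have hd0 : d ≠ 0 := fun h0 => hN (by rw [h0] at hd; exact Nat.eq_zero_of_zero_dvd hd)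
  have h1 : ((x.val * d : ℕ) : ZMod N) = 0 := by
    push_cast
    rw [ZMod.natCast_zmod_val]
    exact h
  rw [ZMod.natCast_eq_zero_iff] at h1
  obtain ⟨m, hm⟩ := h1
  refine ⟨m, ?_⟩
  have h2 : x.val * d = (N / d) * m * d := by
    rw [hm, mul_assoc, mul_comm m d, ← mul_assoc, Nat.div_mul_cancel hd]
  exact Nat.eq_of_mul_eq_mul_right (Nat.pos_of_ne_zero hd0) h2

/-- Generalised Chinese remainder theorem for units: a unit modulo `d` that is `1` modulo
`gcd d (N / d)` lifts to a unit modulo `N` that is `1` modulo `N / d`. -/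
theorem exists_unit_lift_of_gcd {d : ℕ} (hd : d ∣ N) (v : (ZMod d)ˣ)
    (hv : ZMod.unitsMap (Nat.gcd_dvd_left d (N / d)) v = 1) :
    ∃ w : (ZMod N)ˣ, ZMod.unitsMap hd w = v ∧
      ZMod.unitsMap (Nat.div_dvd_of_dvd hd) w = 1 := by
  have hN : N ≠ 0 := NeZero.ne N
  have hd0 : d ≠ 0 := fun h0 => hN (by rw [h0] at hd; exact Nat.eq_zero_of_zero_dvd hd)
  haveI : NeZero d := ⟨hd0⟩
  set k : ℕ := (v : ZMod d).val with hk
  have hkcop : k.Coprime d := ZMod.val_coe_unit_coprime v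
  -- `k ≡ 1` modulo the gcd
  have hk1 : k ≡ 1 [MOD Nat.gcd d (N / d)] := by
    have h1 := congrArg (fun u : (ZMod (Nat.gcd d (N / d)))ˣ => (u : ZMod (Nat.gcd d (N / d)))) hv
    simp only [ZMod.unitsMap_val, Units.val_one] at h1
    have h2 : ((k : ℕ) : ZMod (Nat.gcd d (N / d))) = ((1 : ℕ) : ZMod (Nat.gcd d (N / d))) := by
      rw [Nat.cast_one, hk, ← ZMod.cast_eq_val]
      exact h1
    exact (ZMod.natCast_eq_natCast_iff _ _ _).mp h2
  obtain ⟨m, hm1, hm2⟩ := Nat.chineseRemainder' hk1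
  have hmd : m.Coprime d := by
    have := hm1.gcd_eq
    rw [Nat.Coprime, this]
    exact hkcop
  have hmq : m.Coprime (N / d) := by
    have := hm2.gcd_eq
    rw [Nat.Coprime, this]
    exact Nat.gcd_one_left _
  have hmN : m.Coprime N := by
    have := Nat.Coprime.mul_right hmd hmq
    rwa [Nat.mul_div_cancel' hd] at this
  refine ⟨ZMod.unitOfCoprime m hmN, ?_, ?_⟩
  · apply Units.ext
    rw [ZMod.unitsMap_val, ZMod.coe_unitOfCoprime, ZMod.cast_natCast hd]
    rw [← ZMod.natCast_zmod_val (v : ZMod d)]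
    exact (ZMod.natCast_eq_natCast_iff _ _ _).mpr hm1
  · apply Units.ext
    rw [ZMod.unitsMap_val, ZMod.coe_unitOfCoprime, ZMod.cast_natCast (Nat.div_dvd_of_dvd hd),
      Units.val_one]
    have := (ZMod.natCast_eq_natCast_iff m 1 (N / d)).mpr hm2
    simpa using this

end NumberTheory

section Cusps

variable (N : ℕ) [NeZero N]

/-- Unimodular columns over `ZMod N`. -/
def UniCol : Type := {v : ZMod N × ZMod N // IsCoprime v.1 v.2}

/-- The equivalence relation generated by unit scalings and `(a, c) ↦ (a + t c, c)`. -/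
def cuspSetoid : Setoid (UniCol N) where
  r v w := ∃ (u : (ZMod N)ˣ) (t : ZMod N),
    w.1.1 = u * (v.1.1 + t * v.1.2) ∧ w.1.2 = u * v.1.2
  iseqv :=
    { refl := fun v => ⟨1, 0, by simp, by simp⟩
      symm := by
        rintro v w ⟨u, t, h1, h2⟩
        refine ⟨u⁻¹, -t, ?_, ?_⟩
        · rw [h1, h2]
          have : ((u⁻¹ : (ZMod N)ˣ) : ZMod N) * (u : ZMod N) = 1 := Units.inv_mul u
          linear_combination (-(v.1.1)) * this
        · rw [h2, ← mul_assoc, Units.inv_mul, one_mul]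
      trans := by
        rintro v w x ⟨u, t, h1, h2⟩ ⟨u', t', h1', h2'⟩
        refine ⟨u' * u, t + t', ?_, ?_⟩
        · rw [h1', h1, h2, Units.val_mul]
          ring
        · rw [h2', h2, Units.val_mul, mul_assoc] }

variable {N}

/-- A unimodular column `(a, δ)` with `δ ∣ N` has `a` a unit modulo `δ`. -/
theorem isUnit_castHom_of_isCoprime {δ : ℕ} (hδ : δ ∣ N) {a : ZMod N}
    (h : IsCoprime a (δ : ZMod N)) : IsUnit (ZMod.castHom hδ (ZMod δ) a) := by
  obtain ⟨x, y, hxy⟩ := h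
  have := congrArg (ZMod.castHom hδ (ZMod δ)) hxy
  rw [map_add, map_mul, map_mul, map_natCast, ZMod.natCast_self, mul_zero, add_zero,
    map_one] at this
  exact IsUnit.of_mul_eq_one _ (by rw [mul_comm]; exact this)

/-- Conversely, if `a` is a unit modulo `δ ∣ N` then `(a, δ)` is unimodular. -/
theorem isCoprime_of_isUnit_castHom {δ : ℕ} (hδ : δ ∣ N) {a : ZMod N}
    (h : IsUnit (ZMod.castHom hδ (ZMod δ) a)) : IsCoprime a (δ : ZMod N) := by
  obtain ⟨b', hb'⟩ := h.exists_right_inv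
  obtain ⟨b, rfl⟩ := ZMod.castHom_surjective hδ b'
  have h0 : ZMod.castHom hδ (ZMod δ) (a * b - 1) = 0 := by
    rw [map_sub, map_mul, hb', map_one, sub_self]
  obtain ⟨y, hy⟩ := (castHom_eq_zero_iff_exists_mul hδ _).mp h0
  refine ⟨b, -y, ?_⟩
  linear_combination hy

/-- Existence of representatives. -/
theorem exists_rep {δ : ℕ} (hδ : δ ∣ N) (e : (ZMod (Nat.gcd δ (N / δ)))ˣ) :
    ∃ a : ZMod N, IsUnit (ZMod.castHom hδ (ZMod δ) a) ∧
      ZMod.castHom ((Nat.gcd_dvd_left δ (N / δ)).trans hδ) (ZMod (Nat.gcd δ (N / δ))) a = e := by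
  have hN : N ≠ 0 := NeZero.ne N
  have hd0 : δ ≠ 0 := fun h0 => hN (by rw [h0] at hδ; exact Nat.eq_zero_of_zero_dvd hδ)
  haveI : NeZero δ := ⟨hd0⟩
  obtain ⟨e', he'⟩ := ZMod.unitsMap_surjective (Nat.gcd_dvd_left δ (N / δ)) e
  obtain ⟨a, ha⟩ := ZMod.castHom_surjective hδ (e' : ZMod δ)
  refine ⟨a, by rw [ha]; exact e'.isUnit, ?_⟩
  rw [← ZMod.castHom_comp (Nat.gcd_dvd_left δ (N / δ)) hδ, RingHom.comp_apply, ha, ← he']
  rfl

/-- The chosen representative column attached to `(δ, e)`. -/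
noncomputable def repCol {δ : ℕ} (hδ : δ ∣ N) (e : (ZMod (Nat.gcd δ (N / δ)))ˣ) : UniCol N :=
  ⟨((exists_rep hδ e).choose, (δ : ZMod N)),
    isCoprime_of_isUnit_castHom hδ (exists_rep hδ e).choose_spec.1⟩

theorem repCol_snd {δ : ℕ} (hδ : δ ∣ N) (e : (ZMod (Nat.gcd δ (N / δ)))ˣ) :
    (repCol hδ e).1.2 = (δ : ZMod N) := rfl

theorem repCol_fst_isUnit {δ : ℕ} (hδ : δ ∣ N) (e : (ZMod (Nat.gcd δ (N / δ)))ˣ) :
    IsUnit (ZMod.castHom hδ (ZMod δ) (repCol hδ e).1.1) :=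
  (exists_rep hδ e).choose_spec.1

theorem repCol_fst_cast {δ : ℕ} (hδ : δ ∣ N) (e : (ZMod (Nat.gcd δ (N / δ)))ˣ) :
    ZMod.castHom ((Nat.gcd_dvd_left δ (N / δ)).trans hδ) (ZMod (Nat.gcd δ (N / δ)))
      (repCol hδ e).1.1 = e :=
  (exists_rep hδ e).choose_spec.2

/-- A unit of `ZMod N` congruent to `1` modulo `N / δ` fixes `δ`. -/
theorem unit_mul_natCast_eq_self {δ : ℕ} (hδ : δ ∣ N) (w : (ZMod N)ˣ)
    (hw : ZMod.unitsMap (Nat.div_dvd_of_dvd hδ) w = 1) :
    (w : ZMod N) * (δ : ZMod N) = (δ : ZMod N) := by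
  have h1 : ZMod.castHom (Nat.div_dvd_of_dvd hδ) (ZMod (N / δ)) ((w : ZMod N) - 1) = 0 := by
    have := congrArg (fun u : (ZMod (N / δ))ˣ => (u : ZMod (N / δ))) hw
    simp only [ZMod.unitsMap_val, Units.val_one] at this
    rw [map_sub, map_one, ZMod.castHom_apply, this, sub_self]
  obtain ⟨y, hy⟩ := (castHom_eq_zero_iff_exists_mul _ _).mp h1
  have h2 : ((N / δ : ℕ) : ZMod N) * (δ : ZMod N) = 0 := by
    rw [← Nat.cast_mul, Nat.div_mul_cancel hδ, ZMod.natCast_self]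
  linear_combination (δ : ZMod N) * hy + y * h2

/-- (i) Every unimodular column is equivalent to a representative. -/
theorem exists_equiv_repCol (v : UniCol N) :
    ∃ (δ : ℕ) (hδ : δ ∣ N) (e : (ZMod (Nat.gcd δ (N / δ)))ˣ),
      (cuspSetoid N).r v (repCol hδ e) := by
  obtain ⟨δ, hδ, u₀, hu₀, hc⟩ := ZMod.eq_unit_mul_divisor v.1.2
  obtain ⟨u, rfl⟩ := hu₀
  have hN : N ≠ 0 := NeZero.ne N
  have hd0 : δ ≠ 0 := fun h0 => hN (by rw [h0] at hδ; exact Nat.eq_zero_of_zero_dvd hδ)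
  haveI : NeZero δ := ⟨hd0⟩
  have huinv : ((u⁻¹ : (ZMod N)ˣ) : ZMod N) * (u : ZMod N) = 1 := Units.inv_mul u
  -- normalised first coordinate
  set a₁ : ZMod N := ((u⁻¹ : (ZMod N)ˣ) : ZMod N) * v.1.1 with ha₁
  have hcop : IsCoprime a₁ (δ : ZMod N) := by
    obtain ⟨x, y, hxy⟩ := v.2
    refine ⟨x * u, y * u, ?_⟩
    rw [hc] at hxy
    linear_combination hxy + x * v.1.1 * huinv
  have hU₁ := isUnit_castHom_of_isCoprime hδ hcop
  set U₁ : (ZMod δ)ˣ := hU₁.unit with hU₁def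
  set e : (ZMod (Nat.gcd δ (N / δ)))ˣ := ZMod.unitsMap (Nat.gcd_dvd_left δ (N / δ)) U₁ with he
  refine ⟨δ, hδ, e, ?_⟩
  set E' : (ZMod δ)ˣ := (repCol_fst_isUnit hδ e).unit with hE'
  have hE'e : ZMod.unitsMap (Nat.gcd_dvd_left δ (N / δ)) E' = e := by
    apply Units.ext
    rw [ZMod.unitsMap_val, hE', IsUnit.unit_spec, ← ZMod.castHom_apply (h := Nat.gcd_dvd_left δ (N / δ)),
      ← RingHom.comp_apply, ZMod.castHom_comp]
    exact repCol_fst_cast hδ e
  have hv' : ZMod.unitsMap (Nat.gcd_dvd_left δ (N / δ)) (E' * U₁⁻¹) = 1 := by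
    rw [map_mul, map_inv, hE'e, he, mul_inv_cancel]
  obtain ⟨w, hw1, hw2⟩ := exists_unit_lift_of_gcd hδ (E' * U₁⁻¹) hv'
  have hwδ := unit_mul_natCast_eq_self hδ w hw2
  -- the first coordinates agree modulo δ
  have h0 : ZMod.castHom hδ (ZMod δ) ((repCol hδ e).1.1 - (w : ZMod N) * a₁) = 0 := by
    have h1 : ZMod.castHom hδ (ZMod δ) (w : ZMod N) = ((E' * U₁⁻¹ : (ZMod δ)ˣ) : ZMod δ) := by
      rw [← hw1]; rfl
    have h2 : ZMod.castHom hδ (ZMod δ) a₁ = (U₁ : ZMod δ) := by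
      rw [hU₁def, IsUnit.unit_spec]
    have h3 : ZMod.castHom hδ (ZMod δ) (repCol hδ e).1.1 = (E' : ZMod δ) := by
      rw [hE', IsUnit.unit_spec]
    rw [map_sub, map_mul, h1, h2, h3, Units.val_mul, mul_assoc, Units.inv_mul, mul_one, sub_self]
  obtain ⟨y, hy⟩ := (castHom_eq_zero_iff_exists_mul hδ _).mp h0
  have hwinv : ((w⁻¹ : (ZMod N)ˣ) : ZMod N) * (w : ZMod N) = 1 := Units.inv_mul w
  have hwinv' : (w : ZMod N) * ((w⁻¹ : (ZMod N)ˣ) : ZMod N) = 1 := Units.mul_inv w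
  refine ⟨w * u⁻¹, ((w⁻¹ : (ZMod N)ˣ) : ZMod N) * y, ?_, ?_⟩
  · rw [Units.val_mul, hc]
    linear_combination hy + (- y * (δ : ZMod N)) * hwinv' +
      (- (w : ZMod N) * ((w⁻¹ : (ZMod N)ˣ) : ZMod N) * y * (δ : ZMod N)) * huinv
  · rw [repCol_snd, Units.val_mul, hc]
    linear_combination (-1 : ZMod N) * hwδ - (w : ZMod N) * (δ : ZMod N) * huinv

/-- (ii a) Equivalent representatives have the same divisor. -/
theorem repCol_divisor_eq {δ δ' : ℕ} (hδ : δ ∣ N) (hδ' : δ' ∣ N)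
    (e : (ZMod (Nat.gcd δ (N / δ)))ˣ) (e' : (ZMod (Nat.gcd δ' (N / δ')))ˣ)
    (h : (cuspSetoid N).r (repCol hδ e) (repCol hδ' e')) : δ = δ' := by
  obtain ⟨u, t, -, h2⟩ := h
  rw [repCol_snd, repCol_snd] at h2
  exact eq_of_natCast_eq_unit_mul hδ hδ' u h2

/-- (ii b) Equivalent representatives with the same divisor have the same unit. -/
theorem repCol_unit_eq {δ : ℕ} (hδ : δ ∣ N) (e e' : (ZMod (Nat.gcd δ (N / δ)))ˣ)
    (h : (cuspSetoid N).r (repCol hδ e) (repCol hδ e')) : e = e' := by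
  obtain ⟨u, t, h1, h2⟩ := h
  rw [repCol_snd, repCol_snd] at h2
  rw [repCol_snd] at h1
  have hg : Nat.gcd δ (N / δ) ∣ N := (Nat.gcd_dvd_left δ (N / δ)).trans hδ
  -- `u ≡ 1` modulo `N / δ`, hence modulo the gcd
  have hu0 : ((u : ZMod N) - 1) * (δ : ZMod N) = 0 := by linear_combination -h2
  have hu1 := castHom_eq_zero_of_mul_natCast_eq_zero hδ _ hu0
  have hu2 : ZMod.castHom hg (ZMod (Nat.gcd δ (N / δ))) ((u : ZMod N) - 1) = 0 := by
    rw [← ZMod.castHom_comp (Nat.gcd_dvd_right δ (N / δ)) (Nat.div_dvd_of_dvd hδ),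
      RingHom.comp_apply, hu1, map_zero]
  have hu3 : ZMod.castHom hg (ZMod (Nat.gcd δ (N / δ))) (u : ZMod N) = 1 := by
    rw [map_sub, map_one, sub_eq_zero] at hu2
    exact hu2
  have hδ0 : ZMod.castHom hg (ZMod (Nat.gcd δ (N / δ))) (δ : ZMod N) = 0 := by
    rw [map_natCast, ZMod.natCast_eq_zero_iff]
    exact Nat.gcd_dvd_left δ (N / δ)
  have := congrArg (ZMod.castHom hg (ZMod (Nat.gcd δ (N / δ)))) h1
  rw [map_mul, map_add, map_mul, hu3, hδ0, mul_zero, add_zero, one_mul, repCol_fst_cast,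
    repCol_fst_cast] at this
  exact (Units.ext this).symm

variable (N)

/-- The parametrisation of cusp classes by pairs `(δ, e)`, `δ ∣ N`,
`e ∈ (ZMod (gcd δ (N / δ)))ˣ`. -/
noncomputable def cuspParam :
    (Σ δ : N.divisors, (ZMod (Nat.gcd δ (N / δ)))ˣ) → Quotient (cuspSetoid N) :=
  fun p => Quotient.mk (cuspSetoid N) (repCol (Nat.dvd_of_mem_divisors p.1.2) p.2)

theorem cuspParam_bijective : Function.Bijective (cuspParam N) := by
  constructor
  · rintro ⟨δ, e⟩ ⟨δ', e'⟩ h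
    have hr := Quotient.exact h
    have h1 : (δ : ℕ) = δ' :=
      repCol_divisor_eq (Nat.dvd_of_mem_divisors δ.2) (Nat.dvd_of_mem_divisors δ'.2) e e' hr
    obtain rfl : δ = δ' := Subtype.ext h1
    have h2 := repCol_unit_eq (Nat.dvd_of_mem_divisors δ.2) e e' hr
    rw [h2]
  · intro q
    obtain ⟨v, rfl⟩ := Quotient.exists_rep q
    obtain ⟨δ, hδ, e, hr⟩ := exists_equiv_repCol v
    refine ⟨⟨⟨δ, Nat.mem_divisors.mpr ⟨hδ, NeZero.ne N⟩⟩, e⟩, ?_⟩
    exact (Quotient.sound hr).symm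

/-- **Cusp count**: the number of classes of unimodular columns over `ZMod N` under unit scalings
and `(a, c) ↦ (a + t c, c)` is `∑ d ∣ N, φ (gcd d (N / d))`. -/
theorem card_cuspClasses : Nat.card (Quotient (cuspSetoid N)) = ModularCurve.cuspCount N := by
  have hne : ∀ δ : N.divisors, NeZero (Nat.gcd δ (N / δ)) := by
    intro δ
    refine ⟨Nat.gcd_ne_zero_left ?_⟩
    exact (Nat.pos_of_mem_divisors δ.2).ne'
  haveI : ∀ δ : N.divisors, Finite (ZMod (Nat.gcd δ (N / δ)))ˣ := fun δ => by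
    haveI := hne δ
    infer_instance
  rw [← Nat.card_congr (Equiv.ofBijective _ (cuspParam_bijective N)), Nat.card_sigma,
    ModularCurve.cuspCount, ← Finset.sum_coe_sort N.divisors]
  refine Finset.sum_congr rfl (fun δ _ => ?_)
  haveI := hne δ
  rw [Nat.card_eq_fintype_card, ZMod.card_units_eq_totient]

end Cusps

end Fermat.Agent.ProgramR
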