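import Mathlib

/-!
# The model `SL(2,ℤ) ⧸ Γ₀(N) ≃ ℙ¹(ℤ/N)` (Program R, package R6)

Left cosets `g Γ₀(N)` are identified with the class of the first column of `g` modulo `N`
up to units of `ZMod N`.
-/

set_option autoImplicit false

namespace Fermat.Agent.ProgramR.P1

open Matrix Matrix.SpecialLinearGroup CongruenceSubgroup
open scoped MatrixGroups ModularGroup

variable (N : ℕ)

/-- The first column of `g` modulo `N`. -/
def col (g : SL(2, ℤ)) : ZMod N × ZMod N := ((g 0 0 : ZMod N), (g 1 0 : ZMod N))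

/-- Unimodular vectors of `(ZMod N)²`. -/
def IsUnimodular (v : ZMod N × ZMod N) : Prop := ∃ x y : ZMod N, x * v.1 + y * v.2 = 1

theorem det_eq (g : SL(2, ℤ)) : g 0 0 * g 1 1 - g 0 1 * g 1 0 = 1 := by
  have := g.det_coe
  rw [Matrix.det_fin_two] at this
  exact this

theorem isUnimodular_col (g : SL(2, ℤ)) : IsUnimodular N (col N g) := by
  refine ⟨(g 1 1 : ZMod N), -(g 0 1 : ZMod N), ?_⟩
  have h := congrArg (Int.cast : ℤ → ZMod N) (det_eq g)
  simp only [col]
  push_cast at h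
  linear_combination h

theorem col_mul (h g : SL(2, ℤ)) : col N (h * g) =
    ((h 0 0 : ZMod N) * (col N g).1 + (h 0 1 : ZMod N) * (col N g).2,
      (h 1 0 : ZMod N) * (col N g).1 + (h 1 1 : ZMod N) * (col N g).2) := by
  simp only [col, Matrix.SpecialLinearGroup.coe_mul, Matrix.mul_apply, Fin.sum_univ_two]
  push_cast
  rfl

theorem inv_mul_apply_one_zero (g g' : SL(2, ℤ)) :
    (g⁻¹ * g' : SL(2, ℤ)) 1 0 = g 0 0 * g' 1 0 - g 1 0 * g' 0 0 := by
  simp only [Matrix.SpecialLinearGroup.coe_mul, Matrix.SpecialLinearGroup.coe_inv,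
    Matrix.adjugate_fin_two, Matrix.mul_apply, Fin.sum_univ_two]
  simp
  ring

/-- Two left cosets agree iff the first columns are "proportional" (cross product zero). -/
theorem mk_eq_mk_iff_cross (g g' : SL(2, ℤ)) :
    (QuotientGroup.mk g : SL(2, ℤ) ⧸ Gamma0 N) = QuotientGroup.mk g' ↔
      (col N g).1 * (col N g').2 = (col N g').1 * (col N g).2 := by
  rw [QuotientGroup.eq, Gamma0_mem, inv_mul_apply_one_zero]
  simp only [col]
  push_cast
  rw [sub_eq_zero]
  constructor
  · intro h; rw [h]; ring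
  · intro h; rw [h]; ring

/-- For unimodular vectors, vanishing cross product means proportional by a unit. -/
theorem exists_unit_of_cross {v w : ZMod N × ZMod N} (hv : IsUnimodular N v)
    (hw : IsUnimodular N w) (h : v.1 * w.2 = w.1 * v.2) :
    ∃ u : (ZMod N)ˣ, w = ((u : ZMod N) * v.1, (u : ZMod N) * v.2) := by
  obtain ⟨x, y, hxy⟩ := hv
  obtain ⟨x', y', hxy'⟩ := hw
  have h1 : (x * w.1 + y * w.2) * v.1 = w.1 := by linear_combination w.1 * hxy + y * h
  have h2 : (x * w.1 + y * w.2) * v.2 = w.2 := by linear_combination w.2 * hxy - x * h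
  have h3 : (x' * v.1 + y' * v.2) * w.1 = v.1 := by linear_combination v.1 * hxy' - y' * h
  have h4 : (x' * v.1 + y' * v.2) * w.2 = v.2 := by linear_combination v.2 * hxy' + x' * h
  have hu : (x * w.1 + y * w.2) * (x' * v.1 + y' * v.2) = 1 := by
    have e1 : ((x * w.1 + y * w.2) * (x' * v.1 + y' * v.2) - 1) * w.1 = 0 := by
      linear_combination (x * w.1 + y * w.2) * h3 + h1
    have e2 : ((x * w.1 + y * w.2) * (x' * v.1 + y' * v.2) - 1) * w.2 = 0 := by
      linear_combination (x * w.1 + y * w.2) * h4 + h2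
    linear_combination x' * e1 + y' * e2 +
      (-((x * w.1 + y * w.2) * (x' * v.1 + y' * v.2) - 1)) * hxy'
  refine ⟨⟨x * w.1 + y * w.2, x' * v.1 + y' * v.2, hu, by rw [mul_comm]; exact hu⟩, ?_⟩
  exact Prod.ext h1.symm h2.symm

theorem mk_eq_mk_iff (g g' : SL(2, ℤ)) :
    (QuotientGroup.mk g : SL(2, ℤ) ⧸ Gamma0 N) = QuotientGroup.mk g' ↔
      ∃ u : (ZMod N)ˣ, col N g' = ((u : ZMod N) * (col N g).1, (u : ZMod N) * (col N g).2) := by
  rw [mk_eq_mk_iff_cross]
  constructor
  · exact exists_unit_of_cross N (isUnimodular_col N g) (isUnimodular_col N g')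
  · rintro ⟨u, hu⟩
    rw [hu]; ring

/-! ### Lifting unimodular vectors to `SL(2,ℤ)` -/

/-- Key arithmetic lemma: if `gcd(a, c, N) = 1` and `c ≠ 0` there is `t` with
`gcd(a + t N, c) = 1`. -/
theorem exists_coprime_add_mul (a c N : ℕ) (hc : c ≠ 0)
    (h : ∀ p : ℕ, p.Prime → p ∣ a → p ∣ c → ¬ p ∣ N) : ∃ t : ℕ, (a + t * N).Coprime c := by
  classical
  refine ⟨∏ p ∈ c.primeFactors.filter (fun p => ¬ p ∣ a), p, ?_⟩
  apply Nat.Coprime.symm
  apply Nat.coprime_of_dvd
  intro p hp hpc hpA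
  by_cases hpa : p ∣ a
  · -- then `p ∤ t` and `p ∤ N`
    have hpN : ¬ p ∣ N := h p hp hpa hpc
    have hpt : p ∣ (∏ q ∈ c.primeFactors.filter (fun q => ¬ q ∣ a), q) * N :=
      (Nat.dvd_add_right hpa).mp hpA
    rcases (Nat.Prime.dvd_mul hp).mp hpt with h1 | h1
    · rw [Prime.dvd_finsetProd_iff hp.prime] at h1
      obtain ⟨q, hq, hpq⟩ := h1
      rw [Finset.mem_filter, Nat.mem_primeFactors] at hq
      have : p = q := (Nat.prime_dvd_prime_iff_eq hp hq.1.1).mp hpq
      subst this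
      exact hq.2 hpa
    · exact hpN h1
  · -- then `p ∣ t`
    have hmem : p ∈ c.primeFactors.filter (fun q => ¬ q ∣ a) := by
      rw [Finset.mem_filter, Nat.mem_primeFactors]
      exact ⟨⟨hp, hpc, hc⟩, hpa⟩
    have hpt : p ∣ (∏ q ∈ c.primeFactors.filter (fun q => ¬ q ∣ a), q) * N :=
      Dvd.dvd.mul_right (Finset.dvd_prod_of_mem _ hmem) N
    exact hpa ((Nat.dvd_add_left hpt).mp hpA)

/-- Every unimodular vector modulo `N` is the first column of a matrix in `SL(2,ℤ)`. -/
theorem exists_col_eq [NeZero N] (v : ZMod N × ZMod N) (hv : IsUnimodular N v) :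
    ∃ g : SL(2, ℤ), col N g = v := by
  obtain ⟨x, y, hxy⟩ := hv
  have hN : N ≠ 0 := NeZero.ne N
  -- natural lifts
  set a : ℕ := v.1.val with ha
  set c : ℕ := if v.2.val = 0 then N else v.2.val with hc
  have hc0 : c ≠ 0 := by
    rw [hc]; split_ifs with h0
    · exact hN
    · exact h0
  have hac : ((a : ℕ) : ZMod N) = v.1 := by rw [ha]; exact ZMod.natCast_zmod_val v.1
  have hcc : ((c : ℕ) : ZMod N) = v.2 := by
    rw [hc]; split_ifs with h0
    · rw [ZMod.natCast_self]
      exact ((ZMod.val_eq_zero v.2).mp h0).symm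
    · exact ZMod.natCast_zmod_val v.2
  have hprime : ∀ p : ℕ, p.Prime → p ∣ a → p ∣ c → ¬ p ∣ N := by
    intro p hp hpa hpc hpN
    -- reduce the relation `x a + y c = 1` modulo `p`
    have h1 := congrArg (ZMod.castHom hpN (ZMod p)) hxy
    rw [map_add, map_mul, map_mul, map_one, ← hac, ← hcc, map_natCast, map_natCast,
      (ZMod.natCast_eq_zero_iff a p).mpr hpa, (ZMod.natCast_eq_zero_iff c p).mpr hpc] at h1
    simp only [mul_zero, add_zero] at h1
    have : Fact p.Prime := ⟨hp⟩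
    exact zero_ne_one h1
  obtain ⟨t, ht⟩ := exists_coprime_add_mul a c N hc0 hprime
  -- Bezout
  have hcop : IsCoprime ((a + t * N : ℕ) : ℤ) (c : ℤ) := Nat.isCoprime_iff_coprime.mpr ht
  obtain ⟨r, s, hrs⟩ := hcop
  refine ⟨⟨!![((a + t * N : ℕ) : ℤ), -s; (c : ℤ), r], ?_⟩, ?_⟩
  · rw [Matrix.det_fin_two_of]
    linear_combination hrs
  · simp only [col]
    refine Prod.ext ?_ ?_
    · simp only [Matrix.of_apply, Matrix.cons_val', Matrix.cons_val_zero, Matrix.cons_val_fin_one]
      push_cast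
      rw [hac, ZMod.natCast_self, mul_zero, add_zero]
    · simp only [Matrix.of_apply, Matrix.cons_val', Matrix.cons_val_zero, Matrix.cons_val_one,
        Matrix.cons_val_fin_one]
      push_cast
      exact hcc

end Fermat.Agent.ProgramR.P1
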