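import Mathlib
import Fermat.Prelude.Def_ModularCurve_GenusNumerics
import Fermat.Agent.ProgramR.Counting.Model
import Fermat.Agent.ProgramR.Counting.Cusps

/-!
# Counting the cusps of `Γ₀(N)` (Program R, package R6, item C4, part 2)

The orbits of `⟨T⟩` acting by left multiplication on the left cosets `SL(2,ℤ) ⧸ Γ₀(N)` are in
bijection with the classes of unimodular columns of `(ℤ/N)²` modulo units and
`(a, c) ↦ (a + t c, c)`; the latter were counted in `Counting/Cusps.lean`.
-/

set_option autoImplicit false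

namespace Fermat.Agent.ProgramR

open Matrix Matrix.SpecialLinearGroup CongruenceSubgroup
open scoped MatrixGroups ModularGroup

variable (N : ℕ) [NeZero N]

/-- The first column of `g` modulo `N`, as a unimodular column. -/
def colU (g : SL(2, ℤ)) : UniCol N := ⟨P1.col N g, P1.isUnimodular_col N g⟩

omit [NeZero N] in
theorem col_T_zpow_mul (k : ℤ) (g : SL(2, ℤ)) :
    P1.col N (ModularGroup.T ^ k * g) =
      ((P1.col N g).1 + (k : ZMod N) * (P1.col N g).2, (P1.col N g).2) := by
  rw [P1.col_mul]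
  have h := ModularGroup.coe_T_zpow k
  have h00 : (ModularGroup.T ^ k : SL(2, ℤ)) 0 0 = 1 := by rw [h]; rfl
  have h01 : (ModularGroup.T ^ k : SL(2, ℤ)) 0 1 = k := by rw [h]; rfl
  have h10 : (ModularGroup.T ^ k : SL(2, ℤ)) 1 0 = 0 := by rw [h]; rfl
  have h11 : (ModularGroup.T ^ k : SL(2, ℤ)) 1 1 = 1 := by rw [h]; rfl
  rw [h00, h01, h10, h11]
  simp

/-- The cusp class of the first column. -/
def cuspClass (g : SL(2, ℤ)) : Quotient (cuspSetoid N) := Quotient.mk (cuspSetoid N) (colU N g)

omit [NeZero N] in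
theorem cuspClass_eq_iff (g g' : SL(2, ℤ)) :
    cuspClass N g = cuspClass N g' ↔
      ∃ k : ℤ, (QuotientGroup.mk (ModularGroup.T ^ k * g) : SL(2, ℤ) ⧸ Gamma0 N) =
        QuotientGroup.mk g' := by
  unfold cuspClass
  rw [Quotient.eq]
  constructor
  · rintro ⟨u, t, h1, h2⟩
    obtain ⟨k, hk⟩ := ZMod.intCast_surjective t
    refine ⟨k, ?_⟩
    rw [P1.mk_eq_mk_iff]
    refine ⟨u, ?_⟩
    rw [col_T_zpow_mul, hk]
    exact Prod.ext h1 h2
  · rintro ⟨k, hk⟩
    rw [P1.mk_eq_mk_iff] at hk
    obtain ⟨u, hu⟩ := hk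
    rw [col_T_zpow_mul] at hu
    refine ⟨u, (k : ZMod N), ?_, ?_⟩
    · exact congrArg Prod.fst hu
    · exact congrArg Prod.snd hu

theorem cuspClass_surjective : Function.Surjective (cuspClass N) := by
  intro q
  induction q using Quotient.inductionOn with
  | h v =>
    obtain ⟨g, hg⟩ := P1.exists_col_eq N v.1 v.2
    refine ⟨g, ?_⟩
    unfold cuspClass
    congr 1
    exact Subtype.ext hg

/-- The cusp class of a left coset of `Γ₀(N)`. -/
def cuspClassCoset : SL(2, ℤ) ⧸ Gamma0 N → Quotient (cuspSetoid N) :=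
  Quotient.lift (s := QuotientGroup.leftRel (Gamma0 N)) (cuspClass N) (by
    intro a b hab
    have h : (QuotientGroup.mk a : SL(2, ℤ) ⧸ Gamma0 N) = QuotientGroup.mk b :=
      Quotient.sound hab
    rw [cuspClass_eq_iff]
    exact ⟨0, by simpa using h⟩)

omit [NeZero N] in
theorem cuspClassCoset_mk (g : SL(2, ℤ)) :
    cuspClassCoset N (QuotientGroup.mk g) = cuspClass N g := rfl

omit [NeZero N] in
theorem cuspClassCoset_eq_iff (x y : SL(2, ℤ) ⧸ Gamma0 N) :
    cuspClassCoset N x = cuspClassCoset N y ↔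
      MulAction.orbitRel (Subgroup.zpowers ModularGroup.T) (SL(2, ℤ) ⧸ Gamma0 N) x y := by
  induction x using QuotientGroup.induction_on with
  | H g =>
  induction y using QuotientGroup.induction_on with
  | H g' =>
  rw [cuspClassCoset_mk, cuspClassCoset_mk, MulAction.orbitRel_apply, MulAction.mem_orbit_iff]
  constructor
  · intro h
    obtain ⟨k, hk⟩ := (cuspClass_eq_iff N g' g).mp h.symm
    refine ⟨⟨ModularGroup.T ^ k, Subgroup.zpow_mem_zpowers _ k⟩, ?_⟩
    exact hk
  · rintro ⟨⟨t, ht⟩, h⟩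
    obtain ⟨k, rfl⟩ := Subgroup.mem_zpowers_iff.mp ht
    exact ((cuspClass_eq_iff N g' g).mpr ⟨k, h⟩).symm

/-- The cusp class of a `⟨T⟩`-orbit of left cosets of `Γ₀(N)`. -/
def cuspClassOrbit :
    MulAction.orbitRel.Quotient (Subgroup.zpowers ModularGroup.T) (SL(2, ℤ) ⧸ Gamma0 N) →
      Quotient (cuspSetoid N) :=
  Quotient.lift (s := MulAction.orbitRel (Subgroup.zpowers ModularGroup.T)
    (SL(2, ℤ) ⧸ Gamma0 N)) (cuspClassCoset N) (by
    intro a b hab
    exact (cuspClassCoset_eq_iff N a b).mpr hab)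

theorem cuspClassOrbit_bijective : Function.Bijective (cuspClassOrbit N) := by
  constructor
  · intro a b hab
    induction a using Quotient.inductionOn with
    | h x =>
    induction b using Quotient.inductionOn with
    | h y =>
    exact Quotient.sound ((cuspClassCoset_eq_iff N x y).mp hab)
  · intro q
    obtain ⟨g, hg⟩ := cuspClass_surjective N q
    exact ⟨Quotient.mk _ (QuotientGroup.mk g), hg⟩

/-- **C4.** The number of `⟨T⟩`-orbits on the left cosets of `Γ₀(N)` is the number of cusps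
`∑_{d ∣ N} φ(gcd(d, N/d))`. -/
theorem card_T_orbits :
    Nat.card (MulAction.orbitRel.Quotient (Subgroup.zpowers ModularGroup.T)
      (SL(2, ℤ) ⧸ Gamma0 N)) = ModularCurve.cuspCount N := by
  rw [← card_cuspClasses N]
  exact Nat.card_congr (Equiv.ofBijective _ (cuspClassOrbit_bijective N))

/-- The same count with the cosets, the subgroup and the generator spelled out. -/
theorem card_T_orbits' :
    Nat.card (MulAction.orbitRel.Quotient (Subgroup.zpowers ModularGroup.T)
      (SL(2, ℤ) ⧸ CongruenceSubgroup.Gamma0 N)) = ∑ d ∈ N.divisors, Nat.totient (Nat.gcd d (N / d)) :=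
  card_T_orbits N

end Fermat.Agent.ProgramR
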