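import Fermat.Agent.ProgramR.Counting.Model
import Fermat.Prelude.Def_ModularCurve_GenusNumerics

/-!
# Fixed points of `S` and `S * T` on `SL(2,ℤ) ⧸ Γ₀(N)` (Program R, package R6: C2, C3)
-/

set_option autoImplicit false

namespace Fermat.Agent.ProgramR.P1

open Matrix Matrix.SpecialLinearGroup CongruenceSubgroup
open scoped MatrixGroups ModularGroup

variable (N : ℕ)

/-- The matrix `[[u, -1], [1, 0]]` with first column `(u, 1)`. -/
def gOf (u : ℤ) : SL(2, ℤ) := ⟨!![u, -1; 1, 0], by rw [Matrix.det_fin_two_of]; ring⟩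

theorem col_gOf (u : ℤ) : col N (gOf u) = ((u : ZMod N), 1) := by
  simp [col, gOf]

theorem col_S_mul (g : SL(2, ℤ)) : col N (ModularGroup.S * g) = (-(col N g).2, (col N g).1) := by
  rw [col_mul]
  simp [ModularGroup.coe_S]

theorem col_ST_mul (g : SL(2, ℤ)) :
    col N (ModularGroup.S * ModularGroup.T * g) = (-(col N g).2, (col N g).1 + (col N g).2) := by
  rw [mul_assoc, col_S_mul, col_mul]
  simp [ModularGroup.coe_T]

theorem smul_mk (h g : SL(2, ℤ)) :
    h • (QuotientGroup.mk g : SL(2, ℤ) ⧸ Gamma0 N) = QuotientGroup.mk (h * g) := rfl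

/-- `S` fixes the coset of `g` iff `a² + c² = 0` for the first column `(a, c)`. -/
theorem S_smul_mk_eq_iff (g : SL(2, ℤ)) :
    ModularGroup.S • (QuotientGroup.mk g : SL(2, ℤ) ⧸ Gamma0 N) = QuotientGroup.mk g ↔
      (col N g).1 ^ 2 + (col N g).2 ^ 2 = 0 := by
  rw [smul_mk, eq_comm, mk_eq_mk_iff_cross, col_S_mul]
  constructor
  · intro h; linear_combination h
  · intro h; linear_combination h

/-- `S * T` fixes the coset of `g` iff `a² + a c + c² = 0` for the first column `(a, c)`. -/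
theorem ST_smul_mk_eq_iff (g : SL(2, ℤ)) :
    (ModularGroup.S * ModularGroup.T) • (QuotientGroup.mk g : SL(2, ℤ) ⧸ Gamma0 N) =
        QuotientGroup.mk g ↔
      (col N g).1 ^ 2 + (col N g).1 * (col N g).2 + (col N g).2 ^ 2 = 0 := by
  rw [smul_mk, eq_comm, mk_eq_mk_iff_cross, col_ST_mul]
  constructor
  · intro h; linear_combination h
  · intro h; linear_combination h

/-- In a unimodular vector `(a, c)` with `a² = c * r` the entry `c` is a unit. -/
theorem isUnit_snd_of_sq {v : ZMod N × ZMod N} (hv : IsUnimodular N v) {r : ZMod N}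
    (h : v.1 ^ 2 = v.2 * r) : IsUnit v.2 := by
  obtain ⟨x, y, hxy⟩ := hv
  refine IsUnit.of_mul_eq_one (x ^ 2 * r + 2 * x * y * v.1 + y ^ 2 * v.2) ?_
  have : (x * v.1 + y * v.2) ^ 2 = 1 := by rw [hxy, one_pow]
  linear_combination this - x ^ 2 * h

/-- (C2) The number of fixed points of `S` on `SL(2,ℤ) ⧸ Γ₀(N)` is `ν₂(N)`. -/
theorem card_fixed_S :
    Nat.card {x : SL(2, ℤ) ⧸ Gamma0 N // ModularGroup.S • x = x} = ModularCurve.nuTwo N := by
  rw [ModularCurve.nuTwo]
  symm
  refine Nat.card_congr (Equiv.ofBijective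
    (fun u : {x : ZMod N // x ^ 2 + 1 = 0} =>
      (⟨QuotientGroup.mk (gOf ((u : ZMod N).cast : ℤ)), by
        rw [S_smul_mk_eq_iff, col_gOf]
        simp only [ZMod.intCast_cast, ZMod.cast_id', id_eq, one_pow]
        exact u.2⟩ : {x : SL(2, ℤ) ⧸ Gamma0 N // ModularGroup.S • x = x})) ⟨?_, ?_⟩)
  · intro u u' h
    have h1 := congrArg Subtype.val h
    simp only [mk_eq_mk_iff_cross, col_gOf, ZMod.intCast_cast, ZMod.cast_id', id_eq,
      mul_one] at h1
    exact Subtype.ext h1
  · rintro ⟨x, hx⟩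
    induction x using QuotientGroup.induction_on with
    | H g =>
      rw [S_smul_mk_eq_iff] at hx
      have hunit : IsUnit (col N g).2 :=
        isUnit_snd_of_sq N (isUnimodular_col N g) (r := -(col N g).2) (by linear_combination hx)
      obtain ⟨w, hw⟩ := hunit
      refine ⟨⟨(col N g).1 * (w⁻¹ : (ZMod N)ˣ), ?_⟩, ?_⟩
      · have hw1 : (w : ZMod N) * (w⁻¹ : (ZMod N)ˣ) = 1 := by simp
        rw [← hw] at hx
        linear_combination ((w⁻¹ : (ZMod N)ˣ) : ZMod N) ^ 2 * hx -
          (((w⁻¹ : (ZMod N)ˣ) : ZMod N) * (w : ZMod N) + 1) * hw1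
      · apply Subtype.ext
        simp only [mk_eq_mk_iff_cross, col_gOf, ZMod.intCast_cast, ZMod.cast_id', id_eq,
          mul_one]
        rw [← hw]
        have hw1 : ((w⁻¹ : (ZMod N)ˣ) : ZMod N) * (w : ZMod N) = 1 := by simp
        linear_combination (col N g).1 * hw1

/-- (C3) The number of fixed points of `S * T` on `SL(2,ℤ) ⧸ Γ₀(N)` is `ν₃(N)`. -/
theorem card_fixed_ST :
    Nat.card {x : SL(2, ℤ) ⧸ Gamma0 N // (ModularGroup.S * ModularGroup.T) • x = x} =
      ModularCurve.nuThree N := by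
  rw [ModularCurve.nuThree]
  symm
  refine Nat.card_congr (Equiv.ofBijective
    (fun u : {x : ZMod N // x ^ 2 + x + 1 = 0} =>
      (⟨QuotientGroup.mk (gOf ((u : ZMod N).cast : ℤ)), by
        rw [ST_smul_mk_eq_iff, col_gOf]
        simp only [ZMod.intCast_cast, ZMod.cast_id', id_eq, one_pow, mul_one]
        exact u.2⟩ :
        {x : SL(2, ℤ) ⧸ Gamma0 N // (ModularGroup.S * ModularGroup.T) • x = x})) ⟨?_, ?_⟩)
  · intro u u' h
    have h1 := congrArg Subtype.val h
    simp only [mk_eq_mk_iff_cross, col_gOf, ZMod.intCast_cast, ZMod.cast_id', id_eq,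
      mul_one] at h1
    exact Subtype.ext h1
  · rintro ⟨x, hx⟩
    induction x using QuotientGroup.induction_on with
    | H g =>
      rw [ST_smul_mk_eq_iff] at hx
      have hunit : IsUnit (col N g).2 :=
        isUnit_snd_of_sq N (isUnimodular_col N g) (r := -(col N g).1 - (col N g).2)
          (by linear_combination hx)
      obtain ⟨w, hw⟩ := hunit
      refine ⟨⟨(col N g).1 * (w⁻¹ : (ZMod N)ˣ), ?_⟩, ?_⟩
      · have hw1 : (w : ZMod N) * (w⁻¹ : (ZMod N)ˣ) = 1 := by simp
        rw [← hw] at hx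
        linear_combination ((w⁻¹ : (ZMod N)ˣ) : ZMod N) ^ 2 * hx -
          ((col N g).1 * ((w⁻¹ : (ZMod N)ˣ) : ZMod N) +
            ((w⁻¹ : (ZMod N)ˣ) : ZMod N) * (w : ZMod N) + 1) * hw1
      · apply Subtype.ext
        simp only [mk_eq_mk_iff_cross, col_gOf, ZMod.intCast_cast, ZMod.cast_id', id_eq,
          mul_one]
        rw [← hw]
        have hw1 : ((w⁻¹ : (ZMod N)ˣ) : ZMod N) * (w : ZMod N) = 1 := by simp
        linear_combination (col N g).1 * hw1

end Fermat.Agent.ProgramR.P1
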