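import Mathlib

/-!
# Scott's lemma and the genus of a constellation (Program R, package R6b, part 1)

* `scott` : abstract Scott lemma (Feit–Lyndon–Scott): for endomorphisms `a b c` of a finite
  dimensional space with `a ∘ b ∘ c = id`.
* `cyc π` : number of cycles (including fixed points) of a permutation `π` of a finite type.
* `cyc_add_le` : Ree's inequality `cyc σ + cyc τ + cyc (σ * τ) ≤ |X| + 2` for a transitive pair.
* `sign_eq_neg_one_pow_cyc` : `sign π = (-1) ^ (|X| + cyc π)`.
* `exists_genus` : `∃ g : ℕ, cyc σ + cyc τ + cyc (σ * τ) + 2 * g = |X| + 2`.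
-/

set_option autoImplicit false

namespace Fermat.Agent.ProgramR.Genus

open Module

section Scott

variable {k V : Type*} [Field k] [AddCommGroup V] [Module k V]

variable (a b c : V →ₗ[k] V)

/-- The middle term of the Scott complex. -/
abbrev ScottW : Type _ :=
  ↥(LinearMap.range (1 - a)) × (↥(LinearMap.range (1 - b)) × ↥(LinearMap.range (1 - c)))

/-- First map of the Scott complex: `v ↦ ((1-a)v, (1-b)v, (1-c)v)`. -/
def scottβ : V →ₗ[k] ScottW a b c :=
  ((1 - a).rangeRestrict).prod (((1 - b).rangeRestrict).prod ((1 - c).rangeRestrict))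

/-- Second map of the Scott complex: `(w₁, w₂, w₃) ↦ w₁ + a w₂ + a b w₃`. -/
def scottδ : ScottW a b c →ₗ[k] V :=
  ((LinearMap.range (1 - a)).subtype).coprod
    ((a ∘ₗ (LinearMap.range (1 - b)).subtype).coprod
      ((a ∘ₗ b) ∘ₗ (LinearMap.range (1 - c)).subtype))

lemma scottδ_apply (w : ScottW a b c) :
    scottδ a b c w = (w.1 : V) + (a (w.2.1 : V) + a (b (w.2.2 : V))) := rfl

lemma scottβ_apply_fst (v : V) : ((scottβ a b c v).1 : V) = v - a v := rfl

lemma scottβ_apply_snd_fst (v : V) : ((scottβ a b c v).2.1 : V) = v - b v := rfl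

lemma scottβ_apply_snd_snd (v : V) : ((scottβ a b c v).2.2 : V) = v - c v := rfl

variable {a b c}

lemma scottδ_scottβ (habc : a ∘ₗ b ∘ₗ c = LinearMap.id) (v : V) :
    scottδ a b c (scottβ a b c v) = 0 := by
  have h := LinearMap.congr_fun habc v
  simp only [LinearMap.comp_apply, LinearMap.id_apply] at h
  rw [scottδ_apply, scottβ_apply_fst, scottβ_apply_snd_fst, scottβ_apply_snd_snd]
  simp only [map_sub, h]
  abel

lemma range_scottβ_le_ker_scottδ (habc : a ∘ₗ b ∘ₗ c = LinearMap.id) :
    LinearMap.range (scottβ a b c) ≤ LinearMap.ker (scottδ a b c) := by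
  rintro _ ⟨v, rfl⟩
  rw [LinearMap.mem_ker, scottδ_scottβ habc]

variable (a b c)

lemma ker_scottβ : LinearMap.ker (scottβ a b c) =
    LinearMap.ker (1 - a) ⊓ (LinearMap.ker (1 - b) ⊓ LinearMap.ker (1 - c)) := by
  simp only [scottβ, LinearMap.ker_prod]
  rw [LinearMap.ker_rangeRestrict, LinearMap.ker_rangeRestrict, LinearMap.ker_rangeRestrict]

lemma range_scottδ : LinearMap.range (scottδ a b c) =
    LinearMap.range (1 - a) ⊔
      ((LinearMap.range (1 - b)).map a ⊔ (LinearMap.range (1 - c)).map (a ∘ₗ b)) := by
  simp only [scottδ, LinearMap.range_coprod, LinearMap.range_comp, Submodule.range_subtype]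

variable {a b c}

variable [FiniteDimensional k V]

/-- Subquotient form of Scott's lemma: a space `H` mapping into the kernel of `δ`, injectively
modulo the image of `β`, is finite dimensional and its dimension is bounded. -/
theorem scott_sub (habc : a ∘ₗ b ∘ₗ c = LinearMap.id)
    {H : Type*} [AddCommGroup H] [Module k H] (Ψ : H →ₗ[k] ScottW a b c)
    (hΨδ : ∀ h, scottδ a b c (Ψ h) = 0)
    (hΨβ : ∀ h, Ψ h ∈ LinearMap.range (scottβ a b c) → h = 0) :
    FiniteDimensional k H ∧
    finrank k H + finrank k V + finrank k ↥(LinearMap.range (scottδ a b c))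
      ≤ finrank k ↥(LinearMap.ker (scottβ a b c))
        + (finrank k ↥(LinearMap.range (1 - a)) + (finrank k ↥(LinearMap.range (1 - b))
          + finrank k ↥(LinearMap.range (1 - c)))) := by
  have hinj : Function.Injective Ψ := by
    rw [← LinearMap.ker_eq_bot, LinearMap.ker_eq_bot']
    intro h hh
    apply hΨβ
    rw [hh]
    exact zero_mem _
  have hfd : FiniteDimensional k H := FiniteDimensional.of_injective Ψ hinj
  refine ⟨hfd, ?_⟩
  have hdisj : LinearMap.range Ψ ⊓ LinearMap.range (scottβ a b c) = ⊥ := by
    rw [eq_bot_iff]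
    rintro w ⟨⟨h, rfl⟩, hw⟩
    rw [hΨβ h hw, map_zero]
    exact zero_mem _
  have hle : LinearMap.range Ψ ⊔ LinearMap.range (scottβ a b c) ≤ LinearMap.ker (scottδ a b c) := by
    refine sup_le ?_ (range_scottβ_le_ker_scottδ habc)
    rintro _ ⟨h, rfl⟩
    exact hΨδ h
  have h0 := Submodule.finrank_sup_add_finrank_inf_eq (LinearMap.range Ψ)
    (LinearMap.range (scottβ a b c))
  rw [hdisj, finrank_bot, add_zero, LinearMap.finrank_range_of_inj hinj] at h0
  have h1 := Submodule.finrank_mono hle
  have h2 := LinearMap.finrank_range_add_finrank_ker (scottδ a b c)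
  have h3 := LinearMap.finrank_range_add_finrank_ker (scottβ a b c)
  have h4 : finrank k (ScottW a b c) = finrank k ↥(LinearMap.range (1 - a)) +
      (finrank k ↥(LinearMap.range (1 - b)) + finrank k ↥(LinearMap.range (1 - c))) := by
    rw [Module.finrank_prod, Module.finrank_prod]
  omega

/-- **Scott's lemma** in rank form. -/
theorem scott (a b c : V →ₗ[k] V) (habc : a ∘ₗ b ∘ₗ c = LinearMap.id) :
    finrank k V + finrank k ↥(LinearMap.range (1 - a) ⊔
        ((LinearMap.range (1 - b)).map a ⊔ (LinearMap.range (1 - c)).map (a ∘ₗ b)))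
      ≤ finrank k ↥(LinearMap.ker (1 - a) ⊓ (LinearMap.ker (1 - b) ⊓ LinearMap.ker (1 - c)))
        + (finrank k ↥(LinearMap.range (1 - a)) + (finrank k ↥(LinearMap.range (1 - b))
          + finrank k ↥(LinearMap.range (1 - c)))) := by
  have h := (scott_sub habc (0 : PUnit.{1} →ₗ[k] ScottW a b c) (fun _ => by simp)
    (fun _ _ => Subsingleton.elim _ _)).2
  rw [← ker_scottβ, ← range_scottδ]
  have h0 : finrank k PUnit.{1} = 0 := finrank_zero_of_subsingleton
  omega

end Scott

section Perm

variable {X : Type*} [Fintype X] [DecidableEq X]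

/-- Number of cycles (fixed points included) of a permutation. -/
noncomputable def cyc (π : Equiv.Perm X) : ℕ :=
  Nat.card (Quotient (Equiv.Perm.SameCycle.setoid π))

variable (k : Type*) [Field k]

/-- The permutation operator `f ↦ f ∘ π` on `X → k`. -/
noncomputable def op (π : Equiv.Perm X) : (X → k) →ₗ[k] (X → k) := LinearMap.funLeft k k π

variable {k}

omit [Fintype X] [DecidableEq X] in
@[simp] lemma op_apply (π : Equiv.Perm X) (f : X → k) (x : X) : op k π f x = f (π x) := rfl

omit [Fintype X] [DecidableEq X] in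
lemma mem_ker_one_sub_op (π : Equiv.Perm X) (f : X → k) :
    f ∈ LinearMap.ker (1 - op k π) ↔ ∀ x, f (π x) = f x := by
  rw [LinearMap.mem_ker, LinearMap.sub_apply, Module.End.one_apply, sub_eq_zero]
  constructor
  · intro h x
    have := congrFun h x
    rw [op_apply] at this
    exact this.symm
  · intro h
    funext x
    rw [op_apply, h x]

omit [Fintype X] [DecidableEq X] in
lemma fixed_zpow {Y : Type*} {π : Equiv.Perm X} {f : X → Y} (h : ∀ x, f (π x) = f x) (i : ℤ)
    (x : X) : f ((π ^ i) x) = f x := by
  induction i using Int.induction_on generalizing x with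
  | zero => simp
  | succ n ih =>
    rw [zpow_add_one, Equiv.Perm.mul_apply, ih, h]
  | pred n ih =>
    rw [zpow_sub_one, Equiv.Perm.mul_apply, ih]
    have := h (π⁻¹ x)
    rw [Equiv.Perm.inv_def, Equiv.apply_symm_apply] at this
    exact this.symm

omit [Fintype X] [DecidableEq X] in
lemma ker_one_sub_op_inv (π : Equiv.Perm X) :
    LinearMap.ker (1 - op k π⁻¹) = LinearMap.ker (1 - op k π) := by
  ext f
  rw [mem_ker_one_sub_op, mem_ker_one_sub_op]
  constructor
  · intro h x
    have := h (π x)
    rw [Equiv.Perm.inv_def, Equiv.symm_apply_apply] at this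
    exact this.symm
  · intro h x
    have := h (π⁻¹ x)
    rw [Equiv.Perm.inv_def, Equiv.apply_symm_apply] at this
    exact this.symm

variable (k)

omit [DecidableEq X] in
/-- The fixed space of the permutation operator has dimension the number of cycles. -/
lemma finrank_ker_one_sub_op (π : Equiv.Perm X) :
    finrank k ↥(LinearMap.ker (1 - op k π)) = cyc π := by
  classical
  let Q := Quotient (Equiv.Perm.SameCycle.setoid π)
  let m : X → Q := Quotient.mk (Equiv.Perm.SameCycle.setoid π)
  have hm : Function.Surjective m := Quotient.mk_surjective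
  let L : (Q → k) →ₗ[k] (X → k) := LinearMap.funLeft k k m
  have hL : Function.Injective L := LinearMap.funLeft_injective_of_surjective k k m hm
  have hrange : LinearMap.range L = LinearMap.ker (1 - op k π) := by
    ext f
    rw [mem_ker_one_sub_op]
    constructor
    · rintro ⟨g, rfl⟩ x
      show g (m (π x)) = g (m x)
      congr 1
      apply Quotient.sound
      show π.SameCycle (π x) x
      exact (Equiv.Perm.sameCycle_apply_left).mpr (Equiv.Perm.SameCycle.refl π x)
    · intro h
      refine ⟨Quotient.lift f ?_, ?_⟩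
      · rintro x y ⟨i, rfl⟩
        exact (fixed_zpow h i x).symm
      · funext x
        rfl
  rw [← hrange, LinearMap.finrank_range_of_inj hL]
  have : Fintype Q := Fintype.ofFinite Q
  rw [Module.finrank_fintype_fun_eq_card, cyc, Nat.card_eq_fintype_card]

omit [DecidableEq X] in
lemma finrank_range_one_sub_op (π : Equiv.Perm X) :
    finrank k ↥(LinearMap.range (1 - op k π)) + cyc π = Fintype.card X := by
  have h := LinearMap.finrank_range_add_finrank_ker (1 - op k π)
  rw [finrank_ker_one_sub_op, Module.finrank_fintype_fun_eq_card] at h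
  exact h

omit [DecidableEq X] in
lemma finrank_range_one_sub_op_inv (π : Equiv.Perm X) :
    finrank k ↥(LinearMap.range (1 - op k π⁻¹)) + cyc π = Fintype.card X := by
  have h := LinearMap.finrank_range_add_finrank_ker (1 - op k π⁻¹)
  rw [ker_one_sub_op_inv, finrank_ker_one_sub_op, Module.finrank_fintype_fun_eq_card] at h
  exact h

variable {k}

/-- The group generated by `σ` and `τ` is transitive. -/
def IsTransPair (σ τ : Equiv.Perm X) : Prop :=
  ∀ x y : X, ∃ g ∈ Subgroup.closure ({σ, τ} : Set (Equiv.Perm X)), g x = y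

omit [Fintype X] [DecidableEq X] in
lemma invariant_closure {Y : Type*} {σ τ : Equiv.Perm X} {f : X → Y}
    (hσ : ∀ x, f (σ x) = f x) (hτ : ∀ x, f (τ x) = f x)
    {g : Equiv.Perm X} (hg : g ∈ Subgroup.closure ({σ, τ} : Set (Equiv.Perm X))) :
    ∀ x, f (g x) = f x := by
  induction hg using Subgroup.closure_induction with
  | mem g hg =>
    rcases hg with rfl | hg
    · exact hσ
    · rw [Set.mem_singleton_iff] at hg
      subst hg
      exact hτ
  | one => intro x; rfl
  | mul g h _ _ ihg ihh =>
    intro x
    rw [Equiv.Perm.mul_apply, ihg, ihh]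
  | inv g _ ih =>
    intro x
    have := ih (g⁻¹ x)
    rw [Equiv.Perm.inv_def, Equiv.apply_symm_apply] at this
    rw [Equiv.Perm.inv_def]
    exact this.symm

omit [Fintype X] [DecidableEq X] in
lemma const_of_invariant {Y : Type*} {σ τ : Equiv.Perm X} (ht : IsTransPair σ τ) {f : X → Y}
    (hσ : ∀ x, f (σ x) = f x) (hτ : ∀ x, f (τ x) = f x) (x y : X) : f x = f y := by
  obtain ⟨g, hg, rfl⟩ := ht x y
  exact (invariant_closure hσ hτ hg x).symm

omit [DecidableEq X] in
lemma finrank_fixed_le_one {σ τ : Equiv.Perm X} (ht : IsTransPair σ τ)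
    (K : Submodule k (X → k))
    (hK : ∀ f ∈ K, (∀ x, f (σ x) = f x) ∧ (∀ x, f (τ x) = f x)) :
    finrank k ↥K ≤ 1 := by
  have hle : K ≤ Submodule.span k {fun _ : X => (1 : k)} := by
    intro f hf
    obtain ⟨h1, h2⟩ := hK f hf
    have hc := const_of_invariant ht h1 h2
    rw [Submodule.mem_span_singleton]
    rcases isEmpty_or_nonempty X with hX | ⟨⟨x0⟩⟩
    · exact ⟨0, Subsingleton.elim _ _⟩
    · refine ⟨f x0, ?_⟩
      funext x
      simp [hc x x0]
  refine (Submodule.finrank_mono hle).trans ?_
  refine (finrank_span_le_card _).trans ?_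
  simp

/-- A subspace `U` of the permutation module containing `(1 - a) f` and `a ((1 - b) f)` for all
`f`, where `a = op τ` and `b = op σ` (or their inverses) for a transitive pair, has codimension
at most one. -/
lemma card_le_finrank_add_one {σ τ : Equiv.Perm X} (ht : IsTransPair σ τ)
    (a b : (X → k) →ₗ[k] (X → k))
    (ha : ∀ (f : X → k), a f = op k τ f) (hb : ∀ (f : X → k), b f = op k σ f)
    (U : Submodule k (X → k)) (h1U : ∀ f, (1 - a) f ∈ U) (h2U : ∀ f, a ((1 - b) f) ∈ U) :
    Fintype.card X ≤ finrank k ↥U + 1 := by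
  have hUann : finrank k ↥U.dualAnnihilator ≤ 1 := by
    -- a functional killing `U` is invariant under `a` and `b`
    have key : ∀ φ ∈ U.dualAnnihilator, (∀ f, φ (a f) = φ f) ∧ (∀ f, φ (b f) = φ f) := by
      intro φ hφ
      rw [Submodule.mem_dualAnnihilator] at hφ
      have h1 : ∀ f, φ (a f) = φ f := by
        intro f
        have := hφ _ (h1U f)
        rw [LinearMap.sub_apply, Module.End.one_apply, map_sub, sub_eq_zero] at this
        exact this.symm
      refine ⟨h1, fun f => ?_⟩
      have := hφ _ (h2U f)
      rw [h1, LinearMap.sub_apply, Module.End.one_apply, map_sub, sub_eq_zero] at this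
      exact this.symm
    let S : Module.Dual k (X → k) := ∑ x, LinearMap.proj x
    have hle : U.dualAnnihilator ≤ Submodule.span k {S} := by
      intro φ hφ
      obtain ⟨h1, h2⟩ := key φ hφ
      rw [Submodule.mem_span_singleton]
      -- the coefficient function
      let cf : X → k := fun x => φ (Pi.single x 1)
      have hsingle : ∀ (π : Equiv.Perm X) (x : X),
          op k π (Pi.single (π x) (1 : k)) = Pi.single x 1 := by
        intro π x
        funext y
        rw [op_apply]
        by_cases hxy : y = x
        · subst hxy; simp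
        · rw [Pi.single_eq_of_ne hxy, Pi.single_eq_of_ne]
          exact fun h => hxy (π.injective h)
      have hcσ : ∀ x, cf (σ x) = cf x := by
        intro x
        show φ (Pi.single (σ x) 1) = φ (Pi.single x 1)
        rw [← hsingle σ x, ← hb, h2]
      have hcτ : ∀ x, cf (τ x) = cf x := by
        intro x
        show φ (Pi.single (τ x) 1) = φ (Pi.single x 1)
        rw [← hsingle τ x, ← ha, h1]
      have hconst := const_of_invariant ht hcσ hcτ
      rcases isEmpty_or_nonempty X with hX | ⟨⟨x0⟩⟩
      · refine ⟨0, ?_⟩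
        apply LinearMap.ext
        intro f
        have : f = 0 := Subsingleton.elim _ _
        subst this
        simp
      · refine ⟨cf x0, ?_⟩
        apply LinearMap.pi_ext
        intro i r
        have hS : S (Pi.single i r) = r := by
          simp only [S, LinearMap.sum_apply, LinearMap.proj_apply]
          rw [Finset.sum_eq_single i]
          · simp
          · intro j _ hji
            simp [Pi.single_eq_of_ne hji]
          · intro h; exact absurd (Finset.mem_univ i) h
        rw [LinearMap.smul_apply, hS]
        have : (Pi.single i r : X → k) = r • Pi.single i 1 := by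
          funext y
          by_cases hy : y = i
          · subst hy; simp
          · simp [Pi.single_eq_of_ne hy]
        rw [this, map_smul, smul_eq_mul, smul_eq_mul, mul_comm]
        congr 1
        exact (hconst i x0).symm
    refine (Submodule.finrank_mono hle).trans ?_
    refine (finrank_span_le_card _).trans ?_
    simp
  have hUdim := Subspace.finrank_add_finrank_dualAnnihilator_eq U
  rw [Module.finrank_fintype_fun_eq_card] at hUdim
  omega

/-- **Ree's inequality** for a transitive pair of permutations. -/
theorem cyc_add_le {σ τ : Equiv.Perm X} (ht : IsTransPair σ τ) :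
    cyc σ + cyc τ + cyc (σ * τ) ≤ Fintype.card X + 2 := by
  set a := op ℚ τ with ha
  set b := op ℚ σ with hb
  set c := op ℚ (σ * τ)⁻¹ with hc
  have habc : a ∘ₗ b ∘ₗ c = LinearMap.id := by
    apply LinearMap.ext
    intro f
    funext x
    show f ((σ * τ)⁻¹ ((σ * τ) x)) = f x
    rw [Equiv.Perm.inv_def, Equiv.symm_apply_apply]
  have hS := scott a b c habc
  -- the kernel
  have hker : finrank ℚ ↥(LinearMap.ker (1 - a) ⊓ (LinearMap.ker (1 - b) ⊓ LinearMap.ker (1 - c)))
      ≤ 1 := by
    apply finrank_fixed_le_one ht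
    intro f hf
    rw [Submodule.mem_inf, Submodule.mem_inf] at hf
    exact ⟨(mem_ker_one_sub_op σ f).mp hf.2.1, (mem_ker_one_sub_op τ f).mp hf.1⟩
  -- the image
  have hU := card_le_finrank_add_one ht a b (fun _ => rfl) (fun _ => rfl)
    (LinearMap.range (1 - a) ⊔
        ((LinearMap.range (1 - b)).map a ⊔ (LinearMap.range (1 - c)).map (a ∘ₗ b)))
    (fun f => Submodule.mem_sup_left (LinearMap.mem_range_self _ f))
    (fun f => Submodule.mem_sup_right (Submodule.mem_sup_left
          (Submodule.mem_map_of_mem (LinearMap.mem_range_self _ f))))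
  rw [Module.finrank_fintype_fun_eq_card] at hS
  have ra := finrank_range_one_sub_op ℚ τ
  have rb := finrank_range_one_sub_op ℚ σ
  have rc := finrank_range_one_sub_op_inv ℚ (σ * τ)
  rw [← ha] at ra
  rw [← hb] at rb
  rw [← hc] at rc
  omega

/-- Number of fixed points. -/
noncomputable def fix (π : Equiv.Perm X) : ℕ := Nat.card {x : X // π x = x}

lemma fix_add_card_support (π : Equiv.Perm X) : fix π + π.support.card = Fintype.card X := by
  classical
  rw [fix, Nat.card_eq_fintype_card, Fintype.card_subtype]
  have h : π.support = Finset.univ.filter (fun x => ¬ π x = x) := by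
    ext x; simp
  rw [h, Finset.card_filter_add_card_filter_not]
  rfl

/-- Cycles of `π` = fixed points + nontrivial cycle factors. -/
lemma cyc_eq_fix_add (π : Equiv.Perm X) : cyc π = fix π + π.cycleFactorsFinset.card := by
  classical
  let F : X → {x : X // π x = x} ⊕ {c : Equiv.Perm X // c ∈ π.cycleFactorsFinset} := fun x =>
    if h : π x = x then Sum.inl ⟨x, h⟩
    else Sum.inr ⟨π.cycleOf x,
      Equiv.Perm.cycleOf_mem_cycleFactorsFinset_iff.mpr (Equiv.Perm.mem_support.mpr h)⟩
  have hFl : ∀ x (h : π x = x), F x = Sum.inl ⟨x, h⟩ := fun x h => dif_pos h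
  have hFr : ∀ x (h : ¬ π x = x), F x = Sum.inr ⟨π.cycleOf x,
      Equiv.Perm.cycleOf_mem_cycleFactorsFinset_iff.mpr (Equiv.Perm.mem_support.mpr h)⟩ :=
    fun x h => dif_neg h
  have hiff : ∀ x y, π.SameCycle x y ↔ F x = F y := by
    intro x y
    by_cases hx : π x = x
    · by_cases hy : π y = y
      · rw [hFl x hx, hFl y hy]
        constructor
        · rintro ⟨i, hi⟩
          have : (π ^ i) x = x := Equiv.Perm.zpow_apply_eq_self_of_apply_eq_self hx i
          rw [this] at hi
          subst hi
          rfl
        · intro h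
          have : x = y := by simpa using h
          subst this
          exact Equiv.Perm.SameCycle.refl π x
      · rw [hFl x hx, hFr y hy]
        constructor
        · intro h
          exact absurd ((h.apply_eq_self_iff).mp hx) hy
        · intro h
          exact absurd h (by simp)
    · by_cases hy : π y = y
      · rw [hFr x hx, hFl y hy]
        constructor
        · intro h
          exact absurd ((h.apply_eq_self_iff).mpr hy) hx
        · intro h
          exact absurd h (by simp)
      · rw [hFr x hx, hFr y hy]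
        rw [Equiv.Perm.sameCycle_iff_cycleOf_eq_of_mem_support
          (Equiv.Perm.mem_support.mpr hx) (Equiv.Perm.mem_support.mpr hy)]
        constructor
        · intro h
          simp only [h]
        · intro h
          have := Sum.inr_injective h
          exact congrArg Subtype.val this
  have hsurj : Function.Surjective F := by
    rintro (⟨x, hx⟩ | ⟨c, hc⟩)
    · exact ⟨x, hFl x hx⟩
    · obtain ⟨a, ha⟩ := Equiv.Perm.IsCycle.nonempty_support
        (Equiv.Perm.mem_cycleFactorsFinset_iff.mp hc).1
      have ha' : a ∈ π.support := Equiv.Perm.mem_cycleFactorsFinset_support_le hc ha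
      refine ⟨a, ?_⟩
      rw [hFr a (Equiv.Perm.mem_support.mp ha')]
      congr 1
      apply Subtype.ext
      exact (Equiv.Perm.cycle_is_cycleOf ha hc).symm
  have e1 : Quotient (Equiv.Perm.SameCycle.setoid π) ≃ Quotient (Setoid.ker F) :=
    Quotient.congr (Equiv.refl X) (fun x y => by
      show π.SameCycle x y ↔ F x = F y
      exact hiff x y)
  have e2 := Setoid.quotientKerEquivOfSurjective F hsurj
  rw [cyc, Nat.card_congr (e1.trans e2), Nat.card_sum, fix]
  congr 1
  rw [Nat.card_eq_fintype_card, Fintype.card_coe]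

/-- The sign of a permutation in terms of its number of cycles. -/
theorem sign_eq_neg_one_pow (π : Equiv.Perm X) :
    Equiv.Perm.sign π = (-1) ^ (Fintype.card X + cyc π) := by
  rw [Equiv.Perm.sign_of_cycleType, Equiv.Perm.sum_cycleType]
  have h1 : Multiset.card π.cycleType = π.cycleFactorsFinset.card := by
    rw [Equiv.Perm.cycleType_def]
    simp
  rw [h1]
  have h2 := fix_add_card_support π
  have h3 := cyc_eq_fix_add π
  have : Fintype.card X + cyc π
      = (π.support.card + π.cycleFactorsFinset.card) + 2 * fix π := by omega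
  rw [this, pow_add (-1 : ℤˣ) (π.support.card + π.cycleFactorsFinset.card) (2 * fix π), pow_mul]
  simp

/-- The genus of a constellation is a natural number: for a transitive pair `σ, τ`,
`cyc σ + cyc τ + cyc (σ τ) + 2 g = |X| + 2` for some `g : ℕ` (Riemann–Hurwitz + Ree). -/
theorem exists_genus {σ τ : Equiv.Perm X} (ht : IsTransPair σ τ) :
    ∃ g : ℕ, cyc σ + cyc τ + cyc (σ * τ) + 2 * g = Fintype.card X + 2 := by
  have hle := cyc_add_le ht
  have hsign : Equiv.Perm.sign (σ * τ) = Equiv.Perm.sign σ * Equiv.Perm.sign τ := map_mul _ _ _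
  rw [sign_eq_neg_one_pow, sign_eq_neg_one_pow, sign_eq_neg_one_pow, ← pow_add] at hsign
  have hev : Even ((Fintype.card X + cyc (σ * τ)) +
      (Fintype.card X + cyc σ + (Fintype.card X + cyc τ))) := by
    rw [← neg_one_pow_eq_one_iff_even (R := ℤˣ) (by decide), pow_add, hsign, ← pow_add,
      ← two_mul, pow_mul]
    simp
  obtain ⟨k, hk⟩ := hev
  exact ⟨(Fintype.card X + 2 - (cyc σ + cyc τ + cyc (σ * τ))) / 2, by omega⟩

/-- Cycle count of a permutation of prime order `p` (or trivial). -/
theorem exists_cycle_count_of_pow_eq_one {p : ℕ} (hp : p.Prime) (π : Equiv.Perm X)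
    (hπ : π ^ p = 1) :
    ∃ k : ℕ, cyc π = fix π + k ∧ fix π + p * k = Fintype.card X := by
  refine ⟨π.cycleFactorsFinset.card, cyc_eq_fix_add π, ?_⟩
  rw [← fix_add_card_support π]
  congr 1
  rw [← Equiv.Perm.sum_cycleType]
  have h1 : Multiset.card π.cycleType = π.cycleFactorsFinset.card := by
    rw [Equiv.Perm.cycleType_def]
    simp
  rw [← h1]
  have hall : ∀ n ∈ π.cycleType, n = p := by
    intro n hn
    have h2 : n ∣ p := (Equiv.Perm.dvd_of_mem_cycleType hn).trans (orderOf_dvd_of_pow_eq_one hπ)
    have h3 : 2 ≤ n := Equiv.Perm.two_le_of_mem_cycleType hn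
    rcases (Nat.dvd_prime hp).mp h2 with h | h
    · omega
    · exact h
  rw [Multiset.eq_replicate_card.mpr hall, Multiset.sum_replicate, Multiset.card_replicate,
    smul_eq_mul, mul_comm]

end Perm

end Fermat.Agent.ProgramR.Genus
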