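import Mathlib
import Fermat.Prelude.Def_ModularCurve_GenusNumerics
import Fermat.Agent.ProgramR.Counting.Index
import Fermat.Agent.ProgramR.Counting.Fixed
import Fermat.Agent.ProgramR.Counting.CuspsGroup
import Fermat.Agent.ProgramR.Counting.Scott

/-!
# `genusFormula N` is a natural number (Program R, package R6b)

The permutations `σ = S`, `τ = T` of the finite set `X = SL(2,ℤ) ⧸ Γ₀(N)` generate a transitive
group, `σ² = 1`, `(στ)³ = 1`; the numbers of cycles are
`cyc σ = ν₂ + (μ - ν₂)/2`, `cyc (στ) = ν₃ + (μ - ν₃)/3`, `cyc τ = ν_∞` (the four landed R6 counts),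
and the constellation genus theorem `Genus.exists_genus` (parity via the sign, nonnegativity via
Scott's lemma) gives a natural number `g` with
`cyc σ + cyc τ + cyc (στ) + 2 g = μ + 2`, i.e. `g = genusFormula N`.
-/

set_option autoImplicit false

namespace Fermat.Agent.ProgramR.Genus

open Matrix.SpecialLinearGroup CongruenceSubgroup
open scoped MatrixGroups ModularGroup

variable (N : ℕ)

/-- The permutation of `SL(2,ℤ) ⧸ Γ₀(N)` given by left multiplication by `S`. -/
noncomputable def sigmaN : Equiv.Perm (SL(2, ℤ) ⧸ Gamma0 N) :=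
  MulAction.toPerm (ModularGroup.S : SL(2, ℤ))

/-- The permutation of `SL(2,ℤ) ⧸ Γ₀(N)` given by left multiplication by `T`. -/
noncomputable def tauN : Equiv.Perm (SL(2, ℤ) ⧸ Gamma0 N) :=
  MulAction.toPerm (ModularGroup.T : SL(2, ℤ))

@[simp] lemma sigmaN_apply (x : SL(2, ℤ) ⧸ Gamma0 N) : sigmaN N x = ModularGroup.S • x := rfl

@[simp] lemma tauN_apply (x : SL(2, ℤ) ⧸ Gamma0 N) : tauN N x = ModularGroup.T • x := rfl

lemma neg_one_smul_coset (x : SL(2, ℤ) ⧸ Gamma0 N) : (-1 : SL(2, ℤ)) • x = x := by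
  induction x using QuotientGroup.induction_on with
  | H g =>
    show (QuotientGroup.mk ((-1 : SL(2, ℤ)) * g) : SL(2, ℤ) ⧸ Gamma0 N) = QuotientGroup.mk g
    rw [QuotientGroup.eq]
    have : ((-1 : SL(2, ℤ)) * g)⁻¹ * g = -1 := by
      rw [_root_.mul_inv_rev]
      have h : (-1 : SL(2, ℤ))⁻¹ = -1 := by
        rw [inv_eq_iff_mul_eq_one]
        simp
      rw [h, mul_assoc]
      simp
    rw [this, Gamma0_mem]
    simp

lemma ST_cube : ((ModularGroup.S * ModularGroup.T) ^ 3 : SL(2, ℤ)) = -1 := by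
  ext i j
  fin_cases i <;> fin_cases j <;>
    simp [pow_succ, ModularGroup.S, ModularGroup.T, Matrix.mul_apply, Fin.sum_univ_two]

lemma S_mul_S : (ModularGroup.S * ModularGroup.S : SL(2, ℤ)) = -1 := by
  ext i j
  fin_cases i <;> fin_cases j <;>
    simp [ModularGroup.S, Matrix.mul_apply, Fin.sum_univ_two]

lemma sigmaN_sq : sigmaN N ^ 2 = 1 := by
  apply Equiv.ext
  intro x
  rw [pow_two, Equiv.Perm.mul_apply, sigmaN_apply, sigmaN_apply, ← mul_smul,
    S_mul_S, neg_one_smul_coset]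
  rfl

lemma sigmaN_mul_tauN_apply (x : SL(2, ℤ) ⧸ Gamma0 N) :
    (sigmaN N * tauN N) x = (ModularGroup.S * ModularGroup.T) • x := by
  rw [Equiv.Perm.mul_apply, sigmaN_apply, tauN_apply, mul_smul]

lemma sigmaN_mul_tauN_cube : (sigmaN N * tauN N) ^ 3 = 1 := by
  apply Equiv.ext
  intro x
  rw [pow_succ, pow_two, Equiv.Perm.mul_apply, Equiv.Perm.mul_apply, sigmaN_mul_tauN_apply,
    sigmaN_mul_tauN_apply, sigmaN_mul_tauN_apply, ← mul_smul, ← mul_smul]
  have : (ModularGroup.S * ModularGroup.T) * (ModularGroup.S * ModularGroup.T) *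
      (ModularGroup.S * ModularGroup.T) = (-1 : SL(2, ℤ)) := by
    rw [← ST_cube, pow_succ, pow_two]
  rw [this, neg_one_smul_coset]
  rfl

lemma isTransPair_sigmaN_tauN : IsTransPair (sigmaN N) (tauN N) := by
  intro x y
  obtain ⟨g, hg⟩ := MulAction.exists_smul_eq SL(2, ℤ) x y
  have hmem : g ∈ Subgroup.closure ({ModularGroup.S, ModularGroup.T} : Set SL(2, ℤ)) := by
    rw [SpecialLinearGroup.SL2Z_generators]
    trivial
  have h1 : MulAction.toPermHom SL(2, ℤ) (SL(2, ℤ) ⧸ Gamma0 N) g ∈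
      (Subgroup.closure ({ModularGroup.S, ModularGroup.T} : Set SL(2, ℤ))).map
        (MulAction.toPermHom SL(2, ℤ) (SL(2, ℤ) ⧸ Gamma0 N)) :=
    Subgroup.mem_map_of_mem _ hmem
  rw [MonoidHom.map_closure, Set.image_pair] at h1
  exact ⟨_, h1, hg⟩

lemma tauN_zpow_apply (i : ℤ) (x : SL(2, ℤ) ⧸ Gamma0 N) :
    (tauN N ^ i) x = (ModularGroup.T ^ i : SL(2, ℤ)) • x := by
  have h := map_zpow (MulAction.toPermHom SL(2, ℤ) (SL(2, ℤ) ⧸ Gamma0 N)) ModularGroup.T i
  have h2 : tauN N ^ i = MulAction.toPermHom SL(2, ℤ) (SL(2, ℤ) ⧸ Gamma0 N)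
      (ModularGroup.T ^ i) := h.symm
  rw [h2]
  rfl

variable [NeZero N]

/-- `Fintype` structure on the coset space (finite index). -/
@[reducible] noncomputable def cosetFintype : Fintype (SL(2, ℤ) ⧸ Gamma0 N) := Fintype.ofFinite _

section counts

attribute [local instance] cosetFintype

open Classical in
lemma card_coset : Fintype.card (SL(2, ℤ) ⧸ Gamma0 N) = ModularCurve.dedekindPsi N := by
  rw [← Nat.card_eq_fintype_card, card_quotient_Gamma0]

open Classical in
lemma fix_sigmaN : fix (sigmaN N) = ModularCurve.nuTwo N := by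
  rw [fix, ← P1.card_fixed_S N]
  rfl

open Classical in
lemma fix_sigmaN_mul_tauN : fix (sigmaN N * tauN N) = ModularCurve.nuThree N := by
  rw [fix, ← P1.card_fixed_ST N]
  exact Nat.card_congr (Equiv.subtypeEquivRight (fun x => by rw [sigmaN_mul_tauN_apply]))

open Classical in
lemma cyc_tauN : cyc (tauN N) = ModularCurve.cuspCount N := by
  rw [cyc, ← card_T_orbits N]
  refine Nat.card_congr (Quotient.congr (Equiv.refl _) ?_)
  intro x y
  show (tauN N).SameCycle x y ↔ MulAction.orbitRel _ _ x y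
  rw [MulAction.orbitRel_apply, MulAction.mem_orbit_iff]
  constructor
  · rintro ⟨i, hi⟩
    refine ⟨⟨ModularGroup.T ^ (-i), Subgroup.zpow_mem_zpowers _ _⟩, ?_⟩
    rw [← hi, tauN_zpow_apply]
    show (ModularGroup.T ^ (-i) : SL(2, ℤ)) • ((ModularGroup.T ^ i : SL(2, ℤ)) • x) = x
    rw [← mul_smul, ← _root_.zpow_add]
    simp
  · rintro ⟨⟨g, hg⟩, hgx⟩
    obtain ⟨i, rfl⟩ := Subgroup.mem_zpowers_iff.mp hg
    refine ⟨-i, ?_⟩
    rw [tauN_zpow_apply]
    have hgx' : (ModularGroup.T ^ i : SL(2, ℤ)) • y = x := hgx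
    rw [← hgx', ← mul_smul, ← _root_.zpow_add]
    simp

open Classical in
/-- **R6b**, detailed form: the numbers of `S`-orbits `ν₂ + k₂`, of `ST`-orbits `ν₃ + k₃` and of
`T`-orbits `ν_∞` on `SL(2,ℤ) ⧸ Γ₀(N)` (`μ = ψ(N)` cosets) satisfy the Riemann–Hurwitz relation with
a natural number `g`, and `g = genusFormula N`. -/
theorem genus_counts :
    ∃ g k₂ k₃ : ℕ,
      ModularCurve.nuTwo N + 2 * k₂ = ModularCurve.dedekindPsi N ∧
      ModularCurve.nuThree N + 3 * k₃ = ModularCurve.dedekindPsi N ∧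
      (ModularCurve.nuTwo N + k₂) + ModularCurve.cuspCount N + (ModularCurve.nuThree N + k₃)
        + 2 * g = ModularCurve.dedekindPsi N + 2 ∧
      (g : ℚ) = ModularCurve.genusFormula N := by
  obtain ⟨g, hg⟩ := exists_genus (isTransPair_sigmaN_tauN N)
  obtain ⟨k₂, h2a, h2b⟩ := exists_cycle_count_of_pow_eq_one Nat.prime_two (sigmaN N) (sigmaN_sq N)
  obtain ⟨k₃, h3a, h3b⟩ := exists_cycle_count_of_pow_eq_one Nat.prime_three
    (sigmaN N * tauN N) (sigmaN_mul_tauN_cube N)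
  rw [fix_sigmaN] at h2a h2b
  rw [fix_sigmaN_mul_tauN] at h3a h3b
  rw [card_coset] at h2b h3b hg
  rw [h2a, h3a, cyc_tauN] at hg
  refine ⟨g, k₂, k₃, h2b, h3b, hg, ?_⟩
  rw [ModularCurve.genusFormula]
  have e1 : (ModularCurve.nuTwo N : ℚ) + 2 * k₂ = ModularCurve.dedekindPsi N := by
    exact_mod_cast h2b
  have e2 : (ModularCurve.nuThree N : ℚ) + 3 * k₃ = ModularCurve.dedekindPsi N := by
    exact_mod_cast h3b
  have e3 : ((ModularCurve.nuTwo N : ℚ) + k₂) + ModularCurve.cuspCount N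
      + (ModularCurve.nuThree N + k₃) + 2 * g = ModularCurve.dedekindPsi N + 2 := by
    exact_mod_cast hg
  linarith

open Classical in
/-- The cycle-count form: the natural number `g` of `exists_genus` for `(σ, τ) = (S, T)` acting on
`SL(2,ℤ) ⧸ Γ₀(N)` is `genusFormula N`. -/
theorem exists_genus_cyc :
    ∃ g : ℕ, cyc (sigmaN N) + cyc (tauN N) + cyc (sigmaN N * tauN N) + 2 * g
        = Fintype.card (SL(2, ℤ) ⧸ Gamma0 N) + 2 ∧
      (g : ℚ) = ModularCurve.genusFormula N := by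
  obtain ⟨g, hg⟩ := exists_genus (isTransPair_sigmaN_tauN N)
  refine ⟨g, hg, ?_⟩
  obtain ⟨k₂, h2a, h2b⟩ := exists_cycle_count_of_pow_eq_one Nat.prime_two (sigmaN N) (sigmaN_sq N)
  obtain ⟨k₃, h3a, h3b⟩ := exists_cycle_count_of_pow_eq_one Nat.prime_three
    (sigmaN N * tauN N) (sigmaN_mul_tauN_cube N)
  rw [fix_sigmaN] at h2a h2b
  rw [fix_sigmaN_mul_tauN] at h3a h3b
  rw [card_coset] at h2b h3b hg
  rw [h2a, h3a, cyc_tauN] at hg
  rw [ModularCurve.genusFormula]
  have e1 : (ModularCurve.nuTwo N : ℚ) + 2 * k₂ = ModularCurve.dedekindPsi N := by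
    exact_mod_cast h2b
  have e2 : (ModularCurve.nuThree N : ℚ) + 3 * k₃ = ModularCurve.dedekindPsi N := by
    exact_mod_cast h3b
  have e3 : ((ModularCurve.nuTwo N : ℚ) + k₂) + ModularCurve.cuspCount N
      + (ModularCurve.nuThree N + k₃) + 2 * g = ModularCurve.dedekindPsi N + 2 := by
    exact_mod_cast hg
  linarith

/-- **R6b**: `genusFormula N` is a natural number. -/
theorem genusFormula_eq_nat : ∃ g : ℕ, (g : ℚ) = ModularCurve.genusFormula N := by
  obtain ⟨g, _, _, _, _, _, h⟩ := genus_counts N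
  exact ⟨g, h⟩

end counts

end Fermat.Agent.ProgramR.Genus
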